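import Fermat.Agent.S35.C.Bridge
import Fermat.Agent.S34.BR.Pack

set_option autoImplicit false

/-!
# S33 / N1 / Reflect : `GI` (Gauss-integrality) is reflected by `q ↦ q^d`, and every modular function is `GI` after
multiplication by a power of `p`.
-/

noncomputable section

namespace Fermat.Agent.S33.N1

open AlgebraicCurve ModularCurve
open Fermat.Agent.S24 (Kb FN iotaK)
open Fermat.Agent.S18 (IntA SmallA toFN)
open Fermat.Agent.S18.V (cR)
open Fermat.Agent.GES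
open Fermat.Agent.S34.V2
open Fermat.Agent.S35 (GI GS gi_iff gs_iff gi_of_mem)

theorem gi_zero (A : ValuationSubring Kb) : GI A 0 := by
  refine ⟨0, 1, fun n => by simp [A.zero_mem], ?_, ?_, by simp⟩
  · intro n
    by_cases h : n = 0
    · subst h; simp [A.one_mem]
    · rw [HahnSeries.coeff_one, if_neg h]; exact A.zero_mem
  · intro h
    have := h 0
    rw [HahnSeries.coeff_one, if_pos rfl] at this
    rw [ValuationSubring.mem_nonunits_iff, map_one] at this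
    exact lt_irrefl _ this

theorem exists_model {p : ℕ} (hp : p.Prime) (A : ValuationSubring Kb) (hA : A.LiesOverPrime p)
    {N : ℕ} [NeZero N] (z : FN N) (hz : z ≠ 0) :
    ∃ (K : Type) (_ : Field K) (ι : K →+* Kb) (_ : IsDiscreteValuationRing ↥(A.comap ι))
      (z₀ : LaurentSeries K), InQF ↥(A.comap ι) z₀ ∧ coeffMap ι z₀ = z.1 := by
  obtain ⟨K, i1, i2, _, ι, -, z₀, hz₀, -⟩ :=
    Fermat.Agent.S34.exists_pack N ⊥ inferInstance z hz
  haveI := Fermat.Agent.S18.isDVR_comap ι A hp hA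
  refine ⟨K, i1, ι, inferInstance, z₀.1, InQF.of_mem_FK z₀.2, ?_⟩
  rw [← hz₀, Fermat.Agent.S18.toFN_coe]

/-- (d) REFLECT. -/
theorem gi_of_qExpand {p : ℕ} (hp : p.Prime) (A : ValuationSubring Kb) (hA : A.LiesOverPrime p)
    (d : ℕ) [NeZero d] {N : ℕ} [NeZero N] (z : FN N) (h : GI A (qExpand Kb d z.1)) : GI A z.1 := by
  rcases eq_or_ne z 0 with rfl | hz
  · exact gi_zero A
  obtain ⟨K, _, ι, _, z₀, hq, e⟩ := exists_model hp A hA z hz
  rw [← e] at h ⊢
  rw [← coeffMap_qExpand] at h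
  exact (gi_iff ι A hq).1 ((qExpand_mem_iff d hq).1 ((gi_iff ι A (hq.map_qExpand d)).2 h))

theorem gs_of_qExpand {p : ℕ} (hp : p.Prime) (A : ValuationSubring Kb) (hA : A.LiesOverPrime p)
    (d : ℕ) [NeZero d] {N : ℕ} [NeZero N] (z : FN N) (hz : z ≠ 0) (h : GS A (qExpand Kb d z.1)) :
    GS A z.1 := by
  obtain ⟨K, _, ι, _, z₀, hq, e⟩ := exists_model hp A hA z hz
  rw [← e] at h ⊢
  rw [← coeffMap_qExpand] at h
  exact (gs_iff ι A hq).1 ((qExpand_mem_nonunits_iff d hq).1 ((gs_iff ι A (hq.map_qExpand d)).2 h))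

/-- (BD). -/
theorem exists_pow_gi {p : ℕ} (hp : p.Prime) (A : ValuationSubring Kb) (hA : A.LiesOverPrime p)
    {N : ℕ} [NeZero N] (z : FN N) : ∃ j : ℕ, GI A (HahnSeries.C ((p : Kb) ^ j) * z.1) := by
  rcases eq_or_ne z 0 with rfl | hz
  · exact ⟨0, by simpa using gi_zero A⟩
  obtain ⟨K, _, ι, _, z₀, hq, e⟩ := exists_model hp A hA z hz
  have hz₀ : z₀ ≠ 0 := by
    rintro rfl
    apply hz
    apply Subtype.ext
    rw [← e, map_zero]; rfl
  obtain ⟨ϖ, hϖ⟩ := IsDiscreteValuationRing.exists_irreducible ↥(A.comap ι)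
  obtain ⟨k, α, β, hα, hβ, h⟩ := hq.nf hϖ hz₀
  have hpm : ((p : ℕ) : ↥(A.comap ι)) ∈ IsLocalRing.maximalIdeal ↥(A.comap ι) := by
    rw [← ValuationSubring.coe_mem_nonunits_iff, Fermat.Agent.S18.DVR.mem_nonunits_comap]
    have : ι (((p : ℕ) : ↥(A.comap ι)) : K) = (p : Kb) := by
      simp
    rw [this]
    exact hA
  rw [hϖ.maximalIdeal_eq, Ideal.mem_span_singleton] at hpm
  obtain ⟨r, hr⟩ := hpm
  refine ⟨k.natAbs, ?_⟩
  have h1 : cst ↥(A.comap ι) K ϖ ^ k.natAbs * z₀ ∈ gaussL ↥(A.comap ι) K := by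
    have h2 : (cst ↥(A.comap ι) K ϖ ^ k.natAbs * z₀) * cR ↥(A.comap ι) K β =
        cst ↥(A.comap ι) K ϖ ^ ((k.natAbs : ℤ) + k) * cR ↥(A.comap ι) K α := by
      rw [mul_assoc, h, zpow_add₀ (cst_ne_zero hϖ.ne_zero), zpow_natCast, mul_assoc]
    rw [nf_mem_iff hϖ hα hβ h2]
    omega
  have h3 : ((p : ℕ) : LaurentSeries K) ^ k.natAbs * z₀ ∈ gaussL ↥(A.comap ι) K := by
    have h4 : ((p : ℕ) : LaurentSeries K) = cst ↥(A.comap ι) K ϖ * cst ↥(A.comap ι) K r := by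
      rw [← map_mul, ← hr, map_natCast]
    rw [h4, mul_pow, mul_right_comm]
    exact mul_mem h1 (pow_mem (cst_mem_gaussL r) _)
  have h5 : InQF ↥(A.comap ι) (((p : ℕ) : LaurentSeries K) ^ k.natAbs * z₀) := by
    refine InQF.mul ?_ hq
    have : ((p : ℕ) : LaurentSeries K) ^ k.natAbs =
        algebraMap K (LaurentSeries K) ((p : K) ^ k.natAbs) := by
      rw [map_pow, map_natCast]
    rw [this]
    exact InQF.of_algebraMap _
  have h6 := gi_of_mem ι A h5 h3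
  rwa [map_mul, map_pow, map_natCast, e, ← map_natCast (HahnSeries.C : Kb →+* LaurentSeries Kb),
    ← map_pow] at h6

end Fermat.Agent.S33.N1
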