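import Fermat.Agent.S33.N1.GRing
import Fermat.Agent.S33.N1.Reflect
import Fermat.Agent.GES.FrobSeries
import Fermat.Agent.S24.Degree

set_option autoImplicit false
set_option linter.unusedSectionVars false

/-!
# S33 / N1 / Approx : weak approximation for the two Gauss branches of `F_{Np}`

`ρ := (β j - (α j)^p) / (α j - (β j)^p)` is divisible by `p` at the `∞`-branch and `w ρ = ρ⁻¹`.
So `e_k := 1 / (1 + ρ^k)` is `≡ 1 mod p^k` at `∞` and `≡ 0 mod p^k` at `0`.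
-/

noncomputable section

namespace Fermat.Agent.S33.N1.W

open AlgebraicCurve ModularCurve
open Fermat.Agent.S24 (Kb FN jF)
open Fermat.Agent.S18 (IntA SmallA)
open Fermat.Agent.GES Fermat.Agent.NEW
open Fermat.Agent.S35 (GI GS WF WF_WF WF_alpha WF_beta)

variable {A : ValuationSubring Kb}

/-! ### the Kronecker congruence for `j` -/

theorem frob_j {p : ℕ} [NeZero p] (hp : p.Prime) (A : ValuationSubring Kb) :
    ∃ E : LaurentSeries Kb, IntA A E ∧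
      qExpand Kb p (jqModC Kb) - jqModC Kb ^ p = HahnSeries.C (p : Kb) * E := by
  have : Fact p.Prime := ⟨hp⟩
  set D : LaurentSeries ℤ := qExpand ℤ p (jqModC ℤ) - jqModC ℤ ^ p with hD
  have h1 : coeffMap (Int.castRingHom (ZMod p)) D = 0 := by
    rw [hD, map_sub, map_pow, coeffMap_qExpand, coeffMap_jqModC, pow_char_eq, coeffMap_jqModC,
      sub_self]
  have h2 : ∀ n, (p : ℤ) ∣ D.coeff n := by
    intro n
    have h3 := congrArg (fun x => HahnSeries.coeff x n) h1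
    simp only [coeffMap_coeff, HahnSeries.coeff_zero] at h3
    exact (ZMod.intCast_zmod_eq_zero_iff_dvd _ p).1 h3
  have h3 : coeffMap (Int.castRingHom Kb) D = qExpand Kb p (jqModC Kb) - jqModC Kb ^ p := by
    rw [hD, map_sub, map_pow, coeffMap_qExpand, coeffMap_jqModC]
  have hp0 : (p : Kb) ≠ 0 := by exact_mod_cast hp.ne_zero
  refine ⟨HahnSeries.C (p : Kb)⁻¹ * coeffMap (Int.castRingHom Kb) D, ?_, ?_⟩
  · intro n
    obtain ⟨k, hk⟩ := h2 n
    rw [HahnSeries.C_mul_eq_smul, HahnSeries.coeff_smul, coeffMap_coeff, hk, smul_eq_mul]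
    have : (p : Kb)⁻¹ * (Int.castRingHom Kb) ((p : ℤ) * k) = (k : Kb) := by
      rw [map_mul]
      simp only [eq_intCast, Int.cast_natCast]
      rw [← mul_assoc, inv_mul_cancel₀ hp0, one_mul]
    rw [this]
    exact intCast_mem A k
  · rw [← mul_assoc, ← map_mul, mul_inv_cancel₀ hp0, map_one, one_mul, h3]

theorem int_jq (A : ValuationSubring Kb) : IntA A (jqModC Kb) := by
  intro n
  rw [← coeffMap_jqModC (Int.castRingHom Kb), coeffMap_coeff]
  exact intCast_mem A _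

/-- `j - j(q^p)^p` is integral and primitive. -/
theorem sigma_j {p : ℕ} [NeZero p] (hp : p.Prime) (A : ValuationSubring Kb) :
    IntA A (jqModC Kb - qExpand Kb p (jqModC Kb) ^ p) ∧
      ¬ SmallA A (jqModC Kb - qExpand Kb p (jqModC Kb) ^ p) := by
  refine ⟨IntA.sub (int_jq A) (IntA.pow ((intA_qExpand_iff p).2 (int_jq A)) p), ?_⟩
  intro h
  have h1 := h ((p : ℤ) * (-(p : ℤ)))
  have hlt : (p : ℤ) * (-(p : ℤ)) < -1 := by
    have : (2 : ℤ) ≤ p := by exact_mod_cast hp.two_le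
    nlinarith
  rw [HahnSeries.coeff_sub, coeff_jqModC_of_lt Kb hlt, ← map_pow, qExpand_coeff_mul,
    coeff_jqModC_pow_self, zero_sub] at h1
  rw [ValuationSubring.mem_nonunits_iff, Valuation.map_neg, map_one] at h1
  exact lt_irrefl _ h1

/-! ### the function `ρ` -/

section
variable (N p : ℕ) [NeZero N] [NeZero p]

/-- `β j - (α j)^p`. -/
def rho0 : FN (N * p) := heckeBetaBar Kb N p (jF N) - heckeAlphaBar Kb N p (jF N) ^ p

/-- `α j - (β j)^p`. -/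
def sig0 : FN (N * p) := heckeAlphaBar Kb N p (jF N) - heckeBetaBar Kb N p (jF N) ^ p

theorem coe_jF'' : (jF N : FN N).1 = jqModC Kb := Fermat.Agent.S24.degree_Jser_one

theorem coe_rho0 : (rho0 N p).1 = qExpand Kb p (jqModC Kb) - jqModC Kb ^ p := by
  have h : (rho0 N p).1 = (heckeBetaBar Kb N p (jF N)).1 - (heckeAlphaBar Kb N p (jF N)).1 ^ p := rfl
  rw [h, coe_heckeBetaBar, coe_heckeAlphaBar, coe_jF'']

theorem coe_sig0 : (sig0 N p).1 = jqModC Kb - qExpand Kb p (jqModC Kb) ^ p := by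
  have h : (sig0 N p).1 = (heckeAlphaBar Kb N p (jF N)).1 - (heckeBetaBar Kb N p (jF N)).1 ^ p := rfl
  rw [h, coe_heckeBetaBar, coe_heckeAlphaBar, coe_jF'']

theorem WF_rho0 (hc : Nat.Coprime p N) : WF N p (rho0 N p) = sig0 N p := by
  rw [rho0, sig0, map_sub, map_pow, WF_alpha N p hc, WF_beta N p hc]

theorem WF_sig0 (hc : Nat.Coprime p N) : WF N p (sig0 N p) = rho0 N p := by
  rw [← WF_rho0 N p hc, WF_WF N p hc]

theorem sig0_ne_zero (hp : p.Prime) : sig0 N p ≠ 0 := by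
  intro h
  have h1 := (sigma_j hp (⊤ : ValuationSubring Kb)).2
  rw [← coe_sig0 N p, h] at h1
  exact not_smallA_ne_zero h1 rfl

theorem rho0_ne_zero (hp : p.Prime) (hc : Nat.Coprime p N) : rho0 N p ≠ 0 := by
  intro h
  apply sig0_ne_zero N p hp
  rw [← WF_rho0 N p hc, h, map_zero]

theorem pow_succ_mem_nonunits {c : Kb} (hc : c ∈ A.nonunits) (k : ℕ) : c ^ (k + 1) ∈ A.nonunits := by
  rw [ValuationSubring.mem_nonunits_iff] at hc ⊢
  rw [map_pow]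
  exact pow_lt_one₀ zero_le hc (Nat.succ_ne_zero k)

/-- the approximate idempotent. -/
theorem exists_e (hp : p.Prime) (hc : Nat.Coprime p N) (hA : A.LiesOverPrime p) (k : ℕ) :
    ∃ e : FN (N * p), (∃ φ, GI A φ ∧ (1 - e : FN (N * p)).1 = HahnSeries.C ((p : Kb) ^ k) * φ) ∧
      WF N p e = 1 - e := by
  obtain ⟨E, hE, eE⟩ := frob_j hp A
  obtain ⟨hσ, hσ'⟩ := sigma_j hp A
  have hpA : (p : Kb) ∈ A.nonunits := hA
  set ρ : FN (N * p) := rho0 N p / sig0 N p with hρ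
  have hρ0 : ρ ≠ 0 := div_ne_zero (rho0_ne_zero N p hp hc) (sig0_ne_zero N p hp)
  have hWρ : WF N p ρ = ρ⁻¹ := by
    rw [hρ, map_div₀, WF_rho0 N p hc, WF_sig0 N p hc, inv_div]
  set φ0 : LaurentSeries Kb := E * (jqModC Kb - qExpand Kb p (jqModC Kb) ^ p)⁻¹ with hφ0
  have hφ0G : GI A φ0 := gi_mul (gi_of_int hE) (gi_inv_of_int hσ hσ')
  have e1 : ρ.1 = HahnSeries.C (p : Kb) * φ0 := by
    have h : ρ.1 = (rho0 N p).1 * (sig0 N p).1⁻¹ := by
      rw [hρ, div_eq_mul_inv]; rfl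
    rw [h, coe_rho0, coe_sig0, eE, hφ0, mul_assoc]
  set t : FN (N * p) := ρ ^ (k + 1) with ht
  have ht0 : t ≠ 0 := pow_ne_zero _ hρ0
  have hWt : WF N p t = t⁻¹ := by rw [ht, map_pow, hWρ, inv_pow]
  set ψ : LaurentSeries Kb := φ0 ^ (k + 1) with hψ
  have hψG : GI A ψ := gi_pow hφ0G _
  have e2 : t.1 = HahnSeries.C ((p : Kb) ^ (k + 1)) * ψ := by
    have h : t.1 = ρ.1 ^ (k + 1) := rfl
    rw [h, e1, mul_pow, map_pow]
  obtain ⟨hu0, huG⟩ := one_add_unit (pow_succ_mem_nonunits hpA k) hψG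
  have h1t : (1 + t : FN (N * p)) ≠ 0 := by
    intro h
    apply hu0
    rw [← e2]
    exact congrArg Subtype.val h
  refine ⟨(1 + t)⁻¹, ⟨HahnSeries.C (p : Kb) * ψ * (1 + HahnSeries.C ((p : Kb) ^ (k + 1)) * ψ)⁻¹,
    gi_mul (gi_mul (gi_C (A.nonunits_subset hpA)) hψG) huG, ?_⟩, ?_⟩
  · have h : (1 - (1 + t)⁻¹ : FN (N * p)) = t * (1 + t)⁻¹ := by
      field_simp
      ring
    rw [h]
    have h' : (t * (1 + t)⁻¹ : FN (N * p)).1 = t.1 * (1 + t.1)⁻¹ := rfl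
    rw [h', e2, pow_succ, map_mul]
    ring
  · rw [map_inv₀, map_add, map_one, hWt]
    have h : (1 - (1 + t)⁻¹ : FN (N * p)) = t * (1 + t)⁻¹ := by
      field_simp
      ring
    have h2 : (1 + t⁻¹ : FN (N * p)) = (1 + t) * t⁻¹ := by
      rw [add_mul, one_mul, mul_inv_cancel₀ ht0, add_comm]
    rw [h, h2, mul_inv, inv_inv]
    exact mul_comm _ _

/-- **weak approximation**. -/
theorem approx (hp : p.Prime) (hc : Nat.Coprime p N) (hA : A.LiesOverPrime p) (g : FN (N * p))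
    (hg : g ≠ 0) (c : ℕ) :
    ∃ r : FN (N * p), r ≠ 0 ∧ Dq A ((p : Kb) ^ c) r.1 ∧ Dq A ((p : Kb) ^ c) (WF N p (r / g)).1 := by
  have hpA : (p : Kb) ∈ A.nonunits := hA
  have hpA' : (p : Kb) ∈ A := A.nonunits_subset hpA
  obtain ⟨j1, hj1⟩ := exists_pow_gi hp A hA (g - 1)
  obtain ⟨j2, hj2⟩ := exists_pow_gi hp A hA (WF N p (g⁻¹ - 1))
  obtain ⟨e, ⟨φ, hφ, e1⟩, hW⟩ := exists_e (A := A) N p hp hc hA (c + 1 + j1 + j2)
  have d1 : Dq A ((p : Kb) ^ (c + 1)) (1 + (1 - e) * (g - 1) : FN (N * p)).1 := by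
    refine dq_iff.2 ⟨HahnSeries.C ((p : Kb) ^ j2) * φ * (HahnSeries.C ((p : Kb) ^ j1) * (g - 1).1),
      gi_mul (gi_mul (gi_C (pow_mem hpA' _)) hφ) hj1, ?_⟩
    have h : (1 + (1 - e) * (g - 1) : FN (N * p)).1 = 1 + (1 - e : FN (N * p)).1 * (g - 1).1 := rfl
    rw [h, e1, pow_add, pow_add, map_mul, map_mul]
    ring
  have d2 : Dq A ((p : Kb) ^ (c + 1)) (1 + (1 - e) * WF N p (g⁻¹ - 1) : FN (N * p)).1 := by
    refine dq_iff.2 ⟨HahnSeries.C ((p : Kb) ^ j1) * φ *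
      (HahnSeries.C ((p : Kb) ^ j2) * (WF N p (g⁻¹ - 1)).1),
      gi_mul (gi_mul (gi_C (pow_mem hpA' _)) hφ) hj2, ?_⟩
    have h : (1 + (1 - e) * WF N p (g⁻¹ - 1) : FN (N * p)).1 =
      1 + (1 - e : FN (N * p)).1 * (WF N p (g⁻¹ - 1)).1 := rfl
    rw [h, e1, pow_add, pow_add, map_mul, map_mul]
    ring
  have hmono : ∀ {x : LaurentSeries Kb}, Dq A ((p : Kb) ^ (c + 1)) x → Dq A ((p : Kb) ^ c) x :=
    fun hx => dq_mono hpA' (pow_succ _ _) hx
  refine ⟨1 + (1 - e) * (g - 1), ?_, hmono d1, ?_⟩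
  · intro h
    exact dq_ne_zero (pow_succ_mem_nonunits hpA c) d1 (congrArg Subtype.val h)
  · have h : (1 + (1 - e) * (g - 1)) / g = 1 + e * (g⁻¹ - 1) := by
      field_simp
      ring
    rw [h, map_add, map_one, map_mul, hW]
    exact hmono d2

theorem coe_alg {L : ℕ} (z : Kb) :
    ((algebraMap Kb (FN L) z : FN L) : LaurentSeries Kb) = HahnSeries.C z := by
  have h1 : ((algebraMap Kb (FN L) z : FN L) : LaurentSeries Kb) =
      algebraMap Kb (LaurentSeries Kb) z := rfl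
  rw [h1, algebraMap_laurentSeries_eq_single]
  rfl

theorem gi_of_dq {L : ℕ} {c : Kb} (hc0 : c ≠ 0) (F : FN L) (h : Dq A c F.1) :
    GI A ((algebraMap Kb (FN L) c)⁻¹ * (F - 1) : FN L).1 := by
  obtain ⟨φ, hφ, e⟩ := dq_iff.1 h
  have h1 : ((algebraMap Kb (FN L) c)⁻¹ * (F - 1) : FN L).1 =
      ((algebraMap Kb (FN L) c : FN L) : LaurentSeries Kb)⁻¹ * (F.1 - 1) := rfl
  have hC : (HahnSeries.C c : LaurentSeries Kb) ≠ 0 := by
    rw [Ne, map_eq_zero]; exact hc0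
  rw [h1, coe_alg, e, add_sub_cancel_left, ← mul_assoc, inv_mul_cancel₀ hC, one_mul]
  exact hφ

/-- a class which is deep at both branches has a representative which is deep at both branches. -/
theorem glue (hp : p.Prime) (hc : Nat.Coprime p N) (hA : A.LiesOverPrime p) (m : ℕ) [NeZero m]
    (x : VN (N * p) m) (c : ℕ) (h1 : Dinf A N p m ((p : Kb) ^ c) x)
    (h2 : Dzero A N p m ((p : Kb) ^ c) x) :
    ∃ (f : DN (N * p) m) (f1 : FN (N * p)), Vm.mk f = x ∧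
      ((f : (FN (N * p))ˣ) : FN (N * p)) = 1 + algebraMap Kb (FN (N * p)) ((p : Kb) ^ c) * f1 ∧
      GI A f1.1 ∧ GI A (WF N p f1).1 := by
  have hpA : (p : Kb) ∈ A.nonunits := hA
  have hpc : (p : Kb) ^ c ∈ A := pow_mem (A.nonunits_subset hpA) c
  have hp0 : (p : Kb) ^ c ≠ 0 := pow_ne_zero _ (by exact_mod_cast hp.ne_zero)
  obtain ⟨fi, hfi, di⟩ := h1
  obtain ⟨f0, hf0, d0⟩ := h2
  obtain ⟨w, hw⟩ := (Vm.mk_eq_mk_iff f0 fi).1 (hf0.trans hfi.symm)
  obtain ⟨r, hr0, dr, dr'⟩ := approx (A := A) N p hp hc hA (w : FN (N * p)) w.ne_zero c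
  set ru : (FN (N * p))ˣ := Units.mk0 r hr0 with hru
  set f : DN (N * p) m := fi * ⟨ru ^ m, pow_mem_divBy m ru⟩ with hf
  have hfx : Vm.mk f = x := by
    rw [hf, Vm.mk_mul, hfi, (Vm.mk_eq_zero_iff _).2 ⟨ru, rfl⟩, add_zero]
  have ef : ((f : (FN (N * p))ˣ) : FN (N * p)) = ((fi : (FN (N * p))ˣ) : FN (N * p)) * r ^ m := by
    rw [hf]
    simp [hru]
  have hw' : (w : FN (N * p)) ^ m =
      ((f0 : (FN (N * p))ˣ) : FN (N * p)) / ((fi : (FN (N * p))ˣ) : FN (N * p)) := by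
    have := congrArg (fun u : (FN (N * p))ˣ => (u : FN (N * p))) hw
    simpa using this
  have ef' : ((f : (FN (N * p))ˣ) : FN (N * p)) =
      ((f0 : (FN (N * p))ˣ) : FN (N * p)) * (r / (w : FN (N * p))) ^ m := by
    have hfi0 : ((fi : (FN (N * p))ˣ) : FN (N * p)) ≠ 0 := (fi : (FN (N * p))ˣ).ne_zero
    have hf00 : ((f0 : (FN (N * p))ˣ) : FN (N * p)) ≠ 0 := (f0 : (FN (N * p))ˣ).ne_zero
    rw [ef, div_pow, hw']
    field_simp
  have D1 : Dq A ((p : Kb) ^ c) ((f : (FN (N * p))ˣ) : FN (N * p)).1 := by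
    rw [ef]
    exact dq_mul hpc di (dq_pow hpc dr m)
  have D2 : Dq A ((p : Kb) ^ c) (WF N p ((f : (FN (N * p))ˣ) : FN (N * p))).1 := by
    rw [ef', map_mul, map_pow]
    exact dq_mul hpc d0 (dq_pow hpc dr' m)
  have ha0 : algebraMap Kb (FN (N * p)) ((p : Kb) ^ c) ≠ 0 := by
    rw [Ne, map_eq_zero]; exact hp0
  refine ⟨f, (algebraMap Kb (FN (N * p)) ((p : Kb) ^ c))⁻¹ *
    (((f : (FN (N * p))ˣ) : FN (N * p)) - 1), hfx, ?_, gi_of_dq hp0 _ D1, ?_⟩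
  · rw [← mul_assoc, mul_inv_cancel₀ ha0, one_mul, add_sub_cancel]
  · rw [map_mul, map_inv₀, AlgEquiv.commutes, map_sub, map_one]
    exact gi_of_dq hp0 _ D2

end

end Fermat.Agent.S33.N1.W
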