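import Fermat.Agent.S33.N1.StepS

set_option autoImplicit false

/-!
# S33 / N1 : the conclusion of chapter (N1), from the gluing statement
-/

noncomputable section

namespace Fermat.Agent.S33.N1

open AlgebraicCurve ModularCurve
open Fermat.Agent.S24 (Kb FN)
open Fermat.Agent.GES Fermat.Agent.NEW

/-- the gluing statement (weak approximation for the two Gauss valuations). -/
def Glue (A : ValuationSubring Kb) (N p m : ℕ) [NeZero N] [NeZero p] [NeZero m] : Prop :=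
  ∀ (x : VN (N * p) m) (c : ℕ), Dinf A N p m ((p : Kb) ^ c) x → Dzero A N p m ((p : Kb) ^ c) x →
    ∃ (f : DN (N * p) m) (f1 : FN (N * p)), Vm.mk f = x ∧
      ((f : (FN (N * p))ˣ) : FN (N * p)) = 1 + algebraMap Kb (FN (N * p)) ((p : Kb) ^ c) * f1 ∧
      S35.GI A f1.1 ∧ S35.GI A (S35.WF N p f1).1

/-- both depths of a class of `Br` killed by the two norms are infinite. -/
theorem deep {A : ValuationSubring Kb} {N p m : ℕ} [NeZero N] [NeZero p] [NeZero m]
    (hp : p.Prime) (hpN : ¬ p ∣ N) (hA : A.LiesOverPrime p)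
    (x : VN (N * p) m) (hx : x ∈ Br A N p m)
    (ha : alphaV N p m x = 0) (hb : betaV N p m x = 0) (c : ℕ) :
    Dinf A N p m ((p : Kb) ^ c) x ∧ Dzero A N p m ((p : Kb) ^ c) x := by
  obtain ⟨ζ, hζ⟩ := S35.exists_zeta p
  obtain ⟨π, hπ, hπ0, h1, h2⟩ := init hp A hA N m x hx
  exact deep_both hp hpN hA ζ hζ (stepS hp ζ hζ) x ha hb π hπ hπ0 h1 h2 c

theorem n1_of_glue {A : ValuationSubring Kb} {N p m : ℕ} [NeZero N] [NeZero p] [NeZero m]
    (hG : Glue A N p m)
    (hp : p.Prime) (hpN : ¬ p ∣ N) (hA : A.LiesOverPrime p)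
    (x : VN (N * p) m) (hx : x ∈ Br A N p m)
    (ha : alphaV N p m x = 0) (hb : betaV N p m x = 0) (c : ℕ) :
    ∃ (f : DN (N * p) m) (f1 : FN (N * p)), Vm.mk f = x ∧
      ((f : (FN (N * p))ˣ) : FN (N * p)) = 1 + algebraMap Kb (FN (N * p)) ((p : Kb) ^ c) * f1 ∧
      S35.GI A f1.1 ∧ S35.GI A (S35.WF N p f1).1 := by
  obtain ⟨h1, h2⟩ := deep hp hpN hA x hx ha hb c
  exact hG x c h1 h2

end Fermat.Agent.S33.N1
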