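import Fermat.Agent.S33.N1.MainOf
import Fermat.Agent.S33.N1.Approx

set_option autoImplicit false

/-!
# S33 / N1 : the conclusion of chapter (N1), unconditional
-/

noncomputable section

namespace Fermat.Agent.S33.N1

open AlgebraicCurve ModularCurve
open Fermat.Agent.S24 (Kb FN)
open Fermat.Agent.GES Fermat.Agent.NEW

theorem glue_holds {A : ValuationSubring Kb} {N p m : ℕ} [NeZero N] [NeZero p] [NeZero m]
    (hp : p.Prime) (hpN : ¬ p ∣ N) (hA : A.LiesOverPrime p) : Glue A N p m :=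
  fun x c h1 h2 => W.glue N p hp ((Nat.Prime.coprime_iff_not_dvd hp).2 hpN) hA m x c h1 h2

/-- **(N1)**: a class of `Br` killed by the two norms has a representative `≡ 1 mod p^c` on both
branches. -/
theorem n1 {A : ValuationSubring Kb} {N p m : ℕ} [NeZero N] [NeZero p] [NeZero m]
    (hp : p.Prime) (hpN : ¬ p ∣ N) (hA : A.LiesOverPrime p)
    (x : VN (N * p) m) (hx : x ∈ Br A N p m)
    (ha : alphaV N p m x = 0) (hb : betaV N p m x = 0) (c : ℕ) :
    ∃ (f : DN (N * p) m) (f1 : FN (N * p)), Vm.mk f = x ∧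
      ((f : (FN (N * p))ˣ) : FN (N * p)) = 1 + algebraMap Kb (FN (N * p)) ((p : Kb) ^ c) * f1 ∧
      S35.GI A f1.1 ∧ S35.GI A (S35.WF N p f1).1 :=
  n1_of_glue (glue_holds hp hpN hA) hp hpN hA x hx ha hb c

end Fermat.Agent.S33.N1
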