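import Mathlib

set_option autoImplicit false

/-!
# S33 / N1 : the homogeneous contraction lemma (pure algebra)
-/

namespace Fermat.Agent.S33.N1

open Polynomial Finset

variable {R : Type*} [CommRing R]

/-- the polynomial `∏ (a_i + d_i X)`. -/
noncomputable def pP {p : ℕ} (a' d' : Fin p → R) : R[X] := ∏ i, (C (a' i) + C (d' i) * X)

theorem pP_eval {p : ℕ} (a' d' : Fin p → R) (c : R) :
    (pP a' d').eval c = ∏ i, (a' i + c * d' i) := by
  rw [pP, eval_prod]
  refine Finset.prod_congr rfl fun i _ => ?_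
  rw [eval_add, eval_C, eval_mul, eval_C, eval_X, mul_comm]

theorem pP_natDegree {p : ℕ} (a' d' : Fin p → R) : (pP a' d').natDegree ≤ p := by
  refine (natDegree_prod_le _ _).trans ?_
  calc ∑ i : Fin p, (C (a' i) + C (d' i) * X).natDegree ≤ ∑ _i : Fin p, 1 := by
        refine Finset.sum_le_sum fun i _ => ?_
        refine (natDegree_add_le _ _).trans ?_
        rw [natDegree_C]
        exact max_le (Nat.zero_le _) ((natDegree_C_mul_le _ _).trans natDegree_X_le)
    _ = p := by simp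

theorem pP_coeff_dvd {p : ℕ} (hp : p.Prime) (l : R) (hl : l ∣ (p : R)) (a d : R)
    (a' d' : Fin p → R) (ha : ∀ i, l ∣ a' i - a) (hd : ∀ i, l ∣ d' i - d) (k : ℕ) (hk0 : 0 < k)
    (hkp : k < p) : l ∣ (pP a' d').coeff k := by
  rw [← Ideal.mem_span_singleton, ← Ideal.Quotient.eq_zero_iff_mem, ← coeff_map]
  set π := Ideal.Quotient.mk (Ideal.span {l}) with hπ
  have hpa : ∀ i, π (a' i) = π a := fun i => by
    rw [← sub_eq_zero, ← map_sub, hπ, Ideal.Quotient.eq_zero_iff_mem, Ideal.mem_span_singleton]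
    exact ha i
  have hpd : ∀ i, π (d' i) = π d := fun i => by
    rw [← sub_eq_zero, ← map_sub, hπ, Ideal.Quotient.eq_zero_iff_mem, Ideal.mem_span_singleton]
    exact hd i
  have hp0 : ((p : ℕ) : (R ⧸ Ideal.span {l})[X]) = 0 := by
    have h1 : π (p : R) = 0 := by
      rw [hπ, Ideal.Quotient.eq_zero_iff_mem, Ideal.mem_span_singleton]
      exact hl
    rw [← map_natCast (C : (R ⧸ Ideal.span {l}) →+* _), ← map_natCast π, h1, map_zero]
  have h1 : (pP a' d').map π = (C (π a) + C (π d) * X) ^ p := by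
    rw [pP, Polynomial.map_prod]
    simp only [Polynomial.map_add, Polynomial.map_mul, map_C, map_X, hpa, hpd]
    rw [Finset.prod_const, Finset.card_univ, Fintype.card_fin]
  rw [h1, add_pow_prime_eq hp, hp0]
  simp only [zero_mul, add_zero]
  rw [mul_pow, ← C_pow, ← C_pow, coeff_add, coeff_C, coeff_C_mul, coeff_X_pow, if_neg hk0.ne',
    if_neg hkp.ne, mul_zero, add_zero]

/-- **homogeneous contraction**. -/
theorem prod_add_eq {p : ℕ} (hp : p.Prime) (l : R) (hl : l ∣ (p : R)) (a d : R)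
    (a' d' : Fin p → R) (ha : ∀ i, l ∣ a' i - a) (hd : ∀ i, l ∣ d' i - d) (c : R) :
    ∃ E₁ E₂ : R, ∏ i, (a' i + c * d' i) = ∏ i, a' i + c * l * E₁ + c ^ p * E₂ := by
  have h0 : (pP a' d').coeff 0 = ∏ i, a' i := by
    rw [coeff_zero_eq_eval_zero, pP_eval]
    simp
  have hev := eval_eq_sum_range' (Nat.lt_succ_of_le (pP_natDegree a' d')) c
  rw [pP_eval, Finset.sum_range_succ, Finset.range_eq_Ico,
    Finset.sum_eq_sum_Ico_succ_bot hp.pos, h0, pow_zero, mul_one] at hev
  have hmid : c * l ∣ ∑ k ∈ Finset.Ico (0 + 1) p, (pP a' d').coeff k * c ^ k := by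
    refine Finset.dvd_sum fun k hk => ?_
    rw [Finset.mem_Ico] at hk
    rw [mul_comm c l]
    exact mul_dvd_mul (pP_coeff_dvd hp l hl a d a' d' ha hd k (by omega) hk.2)
      (dvd_pow_self c (by omega))
  obtain ⟨E₁, hE₁⟩ := hmid
  refine ⟨E₁, (pP a' d').coeff p, ?_⟩
  rw [hev, hE₁]
  ring

end Fermat.Agent.S33.N1
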