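import Fermat.Agent.S35.C.Bridge
import Fermat.Agent.S34.BR.Pack

/-!
# S33 (N1), leaf (e): archimedean property of `A` and the start of the depth induction
-/

set_option autoImplicit false

noncomputable section

namespace Fermat.Agent.S33.N1

open ModularCurve
open Fermat.Agent.S24 (Kb FN)
open Fermat.Agent.S18 (IntA SmallA toFN)
open Fermat.Agent.S35 (GI GS)
open Fermat.Agent.S34.V2

/-- in a DVR a power of a non-unit is divisible by any given non-zero element. -/
theorem dvr_exists_pow_dvd {R : Type*} [CommRing R] [IsDomain R] [IsDiscreteValuationRing R]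
    {d x : R} (hd : ¬ IsUnit d) (hx : x ≠ 0) : ∃ k : ℕ, x ∣ d ^ k := by
  obtain ⟨ϖ, hϖ⟩ := IsDiscreteValuationRing.exists_irreducible R
  obtain ⟨e, u, rfl⟩ := IsDiscreteValuationRing.eq_unit_mul_pow_irreducible hx hϖ
  have h1 : ϖ ∣ d := by
    have : d ∈ IsLocalRing.maximalIdeal R := (IsLocalRing.mem_maximalIdeal d).2 hd
    rw [hϖ.maximalIdeal_eq, Ideal.mem_span_singleton] at this
    exact this
  refine ⟨e, ?_⟩
  exact (Units.mul_left_dvd).2 (pow_dvd_pow_of_dvd h1 e)

/-- **(e1)** : the valuation of `A` is archimedean w.r.t. `p`. -/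
theorem exists_pow_eq_p_mul {p : ℕ} (hp : p.Prime) (A : ValuationSubring Kb)
    (hA : A.LiesOverPrime p) {d : Kb} (hd : d ∈ A.nonunits) :
    ∃ k : ℕ, ∃ a ∈ A, d ^ k = (p : Kb) * a := by
  have hint : IsIntegral ℚ d := (AlgebraicClosure.isAlgebraic ℚ).isIntegral.isIntegral d
  let K : IntermediateField ℚ Kb := IntermediateField.adjoin ℚ {d}
  haveI : FiniteDimensional ℚ K := IntermediateField.adjoin.finiteDimensional hint
  haveI : NumberField K := ⟨⟩
  let ι : K →+* Kb := algebraMap K Kb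
  haveI : IsDiscreteValuationRing (A.comap ι) := Fermat.Agent.S18.isDVR_comap ι A hp hA
  let d' : K := ⟨d, IntermediateField.mem_adjoin_simple_self ℚ d⟩
  have hd' : d' ∈ (A.comap ι).nonunits := (Fermat.Agent.S18.DVR.mem_nonunits_comap ι A d').2 hd
  let d'' : A.comap ι := ⟨d', (A.comap ι).nonunits_subset hd'⟩
  have hd'' : ¬ IsUnit d'' := by
    intro h
    have := (ValuationSubring.coe_mem_nonunits_iff (A := A.comap ι) (a := d'')).1 hd'
    exact ((IsLocalRing.mem_maximalIdeal _).1 this) h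
  have hp0 : ((p : ℕ) : A.comap ι) ≠ 0 := by
    exact_mod_cast hp.ne_zero
  obtain ⟨k, a, ha⟩ := dvr_exists_pow_dvd hd'' hp0
  refine ⟨k, ι (a : K), a.2, ?_⟩
  have := congrArg (fun y : A.comap ι => ι (y : K)) ha
  have e : ι (d'' : K) = d := rfl
  simpa [e] using this

theorem arch_gi_zero (A : ValuationSubring Kb) : GI A 0 :=
  ⟨0, 1, fun n => by rw [HahnSeries.coeff_zero]; exact A.zero_mem, Fermat.Agent.GES.IntA.one,
    fun h => by
      have := h 0
      rw [HahnSeries.coeff_one, if_pos rfl] at this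
      exact (ValuationSubring.mem_nonunits_iff A).1 this |>.ne (map_one _), by rw [zero_mul]⟩

/-- **(e2)** : a Gauss-small modular function is divisible by a non-unit constant. -/
theorem exists_depth {p : ℕ} (hp : p.Prime) (A : ValuationSubring Kb)
    (hA : A.LiesOverPrime p) {N : ℕ} [NeZero N] (z : FN N) (h : GS A z.1) :
    ∃ c ∈ A.nonunits, c ≠ 0 ∧ GI A (HahnSeries.C c⁻¹ * z.1) := by
  by_cases hz : z = 0
  · refine ⟨(p : Kb), hA, by exact_mod_cast hp.ne_zero, ?_⟩
    rw [hz]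
    show GI A (_ * (0 : LaurentSeries Kb))
    rw [mul_zero]
    exact arch_gi_zero A
  obtain ⟨K, _, _, _, ι, -, z₀, hz₀, -⟩ := Fermat.Agent.S34.exists_pack N ⊥
    (by infer_instance) z hz
  haveI : IsDiscreteValuationRing (A.comap ι) := Fermat.Agent.S18.isDVR_comap ι A hp hA
  obtain ⟨ϖ, hϖ⟩ := IsDiscreteValuationRing.exists_irreducible (A.comap ι)
  have hQ : InQF (A.comap ι) z₀.1 := InQF.of_mem_FK z₀.2
  have e0 : z.1 = coeffMap ι z₀.1 := by rw [← hz₀]; rfl
  rw [e0] at h ⊢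
  have h1 := (Fermat.Agent.S35.gs_iff ι A hQ).2 h
  have h2 := hQ.div_unif hϖ h1
  have hQ2 : InQF (A.comap ι) (z₀.1 / cst (A.comap ι) K ϖ) := by
    rw [div_eq_mul_inv]
    exact hQ.mul (InQF.of_algebraMap _).inv
  have h3 := Fermat.Agent.S35.gi_of_mem ι A hQ2 h2
  refine ⟨ι (ϖ : K), ?_, ?_, ?_⟩
  · rw [← Fermat.Agent.S18.DVR.mem_nonunits_comap, ValuationSubring.coe_mem_nonunits_iff,
      IsLocalRing.mem_maximalIdeal]
    exact hϖ.not_isUnit
  · rw [Ne, map_eq_zero]
    exact fun h0 => hϖ.ne_zero (Subtype.ext h0)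
  · have e1 : coeffMap ι (z₀.1 / cst (A.comap ι) K ϖ) =
        HahnSeries.C (ι (ϖ : K))⁻¹ * coeffMap ι z₀.1 := by
      rw [map_div₀, div_eq_mul_inv, mul_comm]
      congr 1
      rw [map_inv₀ (HahnSeries.C : Kb →+* LaurentSeries Kb)]
      congr 1
      rw [cst_eq_cR]
      show coeffMap ι (coeffMap _ _) = _
      rw [coeffMap_single, coeffMap_single, HahnSeries.C_apply]
      rfl
    rw [← e1]
    exact h3

end Fermat.Agent.S33.N1
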