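import Fermat.Agent.GES.IntSmall
import Fermat.Agent.S35.C.Bridge
import Fermat.Agent.NEW.Defs

set_option autoImplicit false

/-!
# S33 / N1 : depth of a Kummer class at the two branches (definitions)

`Dq A c g` : `g = 1 + c · (γ / β)` with `γ, β` integral series, `β` primitive (quotient form: the
expansion of an element of `F_N` is in general unbounded).
-/

noncomputable section

namespace Fermat.Agent.S33.N1

open AlgebraicCurve ModularCurve
open Fermat.Agent.S24 (Kb FN)
open Fermat.Agent.S18 (IntA SmallA)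
open Fermat.Agent.GES Fermat.Agent.NEW

/-- `g ≡ 1 mod c` for the Gauss valuation. -/
def Dq (A : ValuationSubring Kb) (c : Kb) (g : LaurentSeries Kb) : Prop :=
  ∃ β γ : LaurentSeries Kb, IntA A β ∧ ¬ SmallA A β ∧ IntA A γ ∧ g * β = β + HahnSeries.C c * γ

/-- depth `c` at the `∞`-branch. -/
def Dinf (A : ValuationSubring Kb) (N p m : ℕ) [NeZero N] [NeZero p] [NeZero m] (c : Kb)
    (x : VN (N * p) m) : Prop :=
  ∃ f : DN (N * p) m, Vm.mk f = x ∧ Dq A c (((f : (FN (N * p))ˣ) : FN (N * p)) : LaurentSeries Kb)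

/-- depth `c` at the `0`-branch. -/
def Dzero (A : ValuationSubring Kb) (N p m : ℕ) [NeZero N] [NeZero p] [NeZero m] (c : Kb)
    (x : VN (N * p) m) : Prop :=
  ∃ f : DN (N * p) m, Vm.mk f = x ∧
    Dq A c ((S35.WF N p ((f : (FN (N * p))ˣ) : FN (N * p)) : FN (N * p)) : LaurentSeries Kb)

end Fermat.Agent.S33.N1
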