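import Fermat.Agent.S33.N1.Defs

set_option autoImplicit false
set_option linter.unusedSectionVars false

/-!
# S33 / N1 / GRing : API of the Gauss ring `GI A` and of the depth predicate `Dq A c`
-/

noncomputable section

namespace Fermat.Agent.S33.N1.W

open AlgebraicCurve ModularCurve
open Fermat.Agent.S24 (Kb FN jF)
open Fermat.Agent.S18 (IntA SmallA)
open Fermat.Agent.GES Fermat.Agent.NEW
open Fermat.Agent.S35 (GI GS WF WF_WF WF_alpha WF_beta)

variable {A : ValuationSubring Kb}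

/-! ### the Gauss ring -/

theorem not_small_one : ¬ SmallA A (1 : LaurentSeries Kb) := by
  intro h
  have h0 := h 0
  rw [HahnSeries.coeff_one, if_pos rfl] at h0
  exact ((ValuationSubring.mem_nonunits_iff A).1 h0).ne (map_one _)

theorem int_zero : IntA A (0 : LaurentSeries Kb) := fun n => by
  rw [HahnSeries.coeff_zero]; exact A.zero_mem

theorem int_C {a : Kb} (ha : a ∈ A) : IntA A (HahnSeries.C a) := fun n => by
  rw [HahnSeries.C_apply, HahnSeries.coeff_single]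
  split_ifs
  · exact ha
  · exact A.zero_mem

theorem small_C {a : Kb} (ha : a ∈ A.nonunits) : SmallA A (HahnSeries.C a) := fun n => by
  rw [HahnSeries.C_apply, HahnSeries.coeff_single]
  split_ifs
  · exact ha
  · rw [ValuationSubring.mem_nonunits_iff, map_zero]; exact zero_lt_one

theorem gi_of_int {f : LaurentSeries Kb} (h : IntA A f) : GI A f :=
  ⟨f, 1, h, IntA.one, not_small_one, mul_one f⟩

theorem gi_zero' : GI A 0 := gi_of_int int_zero

theorem gi_one : GI A 1 := gi_of_int IntA.one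

theorem gi_C {a : Kb} (ha : a ∈ A) : GI A (HahnSeries.C a) := gi_of_int (int_C ha)

theorem gi_mul {f g : LaurentSeries Kb} (hf : GI A f) (hg : GI A g) : GI A (f * g) := by
  obtain ⟨a, b, ha, hb, hb', e⟩ := hf
  obtain ⟨a', b', ha', hb2, hb2', e'⟩ := hg
  refine ⟨a * a', b * b', IntA.mul ha ha', IntA.mul hb hb2, not_smallA_mul hb hb2 hb' hb2', ?_⟩
  rw [← e, ← e']
  ring

theorem gi_add {f g : LaurentSeries Kb} (hf : GI A f) (hg : GI A g) : GI A (f + g) := by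
  obtain ⟨a, b, ha, hb, hb', e⟩ := hf
  obtain ⟨a', b', ha', hb2, hb2', e'⟩ := hg
  refine ⟨a * b' + a' * b, b * b', IntA.add (IntA.mul ha hb2) (IntA.mul ha' hb), IntA.mul hb hb2,
    not_smallA_mul hb hb2 hb' hb2', ?_⟩
  rw [← e, ← e']
  ring

theorem gi_neg {f : LaurentSeries Kb} (hf : GI A f) : GI A (-f) := by
  obtain ⟨a, b, ha, hb, hb', e⟩ := hf
  refine ⟨0 - a, b, IntA.sub int_zero ha, hb, hb', ?_⟩
  rw [← e]
  ring

theorem gi_sub {f g : LaurentSeries Kb} (hf : GI A f) (hg : GI A g) : GI A (f - g) := by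
  rw [sub_eq_add_neg]
  exact gi_add hf (gi_neg hg)

theorem gi_pow {f : LaurentSeries Kb} (hf : GI A f) (n : ℕ) : GI A (f ^ n) := by
  induction n with
  | zero => rw [pow_zero]; exact gi_one
  | succ n ih => rw [pow_succ]; exact gi_mul ih hf

/-- the inverse of a primitive integral series. -/
theorem gi_inv_of_int {f : LaurentSeries Kb} (h : IntA A f) (h' : ¬ SmallA A f) : GI A f⁻¹ :=
  ⟨1, f, IntA.one, h, h', inv_mul_cancel₀ (not_smallA_ne_zero h')⟩

/-- `1 + c φ` is a unit of the Gauss ring (`c ∈ 𝔪_A`). -/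
theorem one_add_unit {c : Kb} (hc : c ∈ A.nonunits) {φ : LaurentSeries Kb} (hφ : GI A φ) :
    1 + HahnSeries.C c * φ ≠ 0 ∧ GI A (1 + HahnSeries.C c * φ)⁻¹ := by
  obtain ⟨a, b, ha, hb, hb', e⟩ := hφ
  have hs : SmallA A (HahnSeries.C c * a) := SmallA.mul_right (small_C hc) ha
  have hγ : IntA A (b + HahnSeries.C c * a) := IntA.add hb (SmallA.intA hs)
  have hγ' : ¬ SmallA A (b + HahnSeries.C c * a) :=
    not_smallA_of_sub (y := b) (by rw [add_sub_cancel_left]; exact hs) hb'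
  have e2 : (1 + HahnSeries.C c * φ) * b = b + HahnSeries.C c * a := by
    rw [← e]; ring
  have h0 : 1 + HahnSeries.C c * φ ≠ 0 := by
    intro h
    rw [h, zero_mul] at e2
    exact not_smallA_ne_zero hγ' e2.symm
  refine ⟨h0, b, b + HahnSeries.C c * a, hb, hγ, hγ', ?_⟩
  rw [← e2, ← mul_assoc, inv_mul_cancel₀ h0, one_mul]

/-! ### `Dq` -/

theorem dq_iff {c : Kb} {g : LaurentSeries Kb} :
    Dq A c g ↔ ∃ φ, GI A φ ∧ g = 1 + HahnSeries.C c * φ := by
  constructor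
  · rintro ⟨β, γ, hβ, hβ', hγ, e⟩
    have h0 := not_smallA_ne_zero hβ'
    refine ⟨γ * β⁻¹, ⟨γ, β, hγ, hβ, hβ', by rw [mul_assoc, inv_mul_cancel₀ h0, mul_one]⟩, ?_⟩
    have : g = (g * β) * β⁻¹ := by rw [mul_assoc, mul_inv_cancel₀ h0, mul_one]
    rw [this, e, add_mul, mul_inv_cancel₀ h0, mul_assoc]
  · rintro ⟨φ, ⟨α, β, hα, hβ, hβ', e⟩, rfl⟩
    exact ⟨β, α, hβ, hβ', hα, by rw [← e]; ring⟩

theorem dq_one (c : Kb) : Dq A c 1 :=
  dq_iff.2 ⟨0, gi_zero', by rw [mul_zero, add_zero]⟩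

theorem dq_mul {c : Kb} (hc : c ∈ A) {g h : LaurentSeries Kb} (hg : Dq A c g) (hh : Dq A c h) :
    Dq A c (g * h) := by
  obtain ⟨φ, hφ, rfl⟩ := dq_iff.1 hg
  obtain ⟨ψ, hψ, rfl⟩ := dq_iff.1 hh
  exact dq_iff.2 ⟨φ + ψ + HahnSeries.C c * (φ * ψ),
    gi_add (gi_add hφ hψ) (gi_mul (gi_C hc) (gi_mul hφ hψ)), by ring⟩

theorem dq_pow {c : Kb} (hc : c ∈ A) {g : LaurentSeries Kb} (hg : Dq A c g) (n : ℕ) :
    Dq A c (g ^ n) := by
  induction n with
  | zero => rw [pow_zero]; exact dq_one c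
  | succ n ih => rw [pow_succ]; exact dq_mul hc ih hg

theorem dq_mono {c c' a : Kb} (ha : a ∈ A) (e : c = c' * a) {g : LaurentSeries Kb}
    (hg : Dq A c g) : Dq A c' g := by
  obtain ⟨φ, hφ, rfl⟩ := dq_iff.1 hg
  exact dq_iff.2 ⟨HahnSeries.C a * φ, gi_mul (gi_C ha) hφ, by rw [e, map_mul, mul_assoc]⟩

theorem dq_ne_zero {c : Kb} (hc : c ∈ A.nonunits) {g : LaurentSeries Kb} (hg : Dq A c g) :
    g ≠ 0 := by
  obtain ⟨φ, hφ, rfl⟩ := dq_iff.1 hg
  exact (one_add_unit hc hφ).1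

theorem dq_inv {c : Kb} (hc : c ∈ A.nonunits) {g : LaurentSeries Kb} (hg : Dq A c g) :
    Dq A c g⁻¹ := by
  obtain ⟨φ, hφ, rfl⟩ := dq_iff.1 hg
  obtain ⟨h0, h1⟩ := one_add_unit hc hφ
  refine dq_iff.2 ⟨-(φ * (1 + HahnSeries.C c * φ)⁻¹), gi_neg (gi_mul hφ h1), ?_⟩
  field_simp
  ring

end Fermat.Agent.S33.N1.W
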