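import Fermat.Agent.S33.N1.MainOf
import Fermat.Agent.S33.N1.GRing

set_option autoImplicit false

/-!
# S33 / N1 : gluing the two representatives, from weak approximation
-/

noncomputable section

namespace Fermat.Agent.S33.N1

open AlgebraicCurve ModularCurve
open Fermat.Agent.S24 (Kb FN)
open Fermat.Agent.GES Fermat.Agent.NEW

/-- weak approximation for the two Gauss valuations. -/
def ApproxS (A : ValuationSubring Kb) (N p : ℕ) [NeZero N] [NeZero p] : Prop :=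
  ∀ g : FN (N * p), g ≠ 0 → ∀ c : ℕ, ∃ r : FN (N * p), r ≠ 0 ∧
    Dq A ((p : Kb) ^ c) r.1 ∧ Dq A ((p : Kb) ^ c) (S35.WF N p (r / g)).1

theorem coe_algebraMap_FN {N : ℕ} [NeZero N] (a : Kb) :
    ((algebraMap Kb (FN N) a : FN N) : LaurentSeries Kb) = HahnSeries.C a := by
  rw [IntermediateField.coe_algebraMap_apply, algebraMap_laurentSeries_eq_single]
  rfl

theorem glue_of_approx {A : ValuationSubring Kb} {N p m : ℕ} [NeZero N] [NeZero p] [NeZero m]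
    (hAp : ApproxS A N p) : Glue A N p m := by
  rintro x c ⟨f₁, hf₁, hD₁⟩ ⟨f₂, hf₂, hD₂⟩
  have hpc : (p : Kb) ^ c ∈ A := pow_mem (natCast_mem A p) c
  have hp0 : (p : Kb) ^ c ≠ 0 := pow_ne_zero _ (Nat.cast_ne_zero.2 (NeZero.ne p))
  obtain ⟨w, hw⟩ := (Vm.mk_eq_mk_iff f₂ f₁).1 (hf₂.trans hf₁.symm)
  obtain ⟨r, hr0, hr1, hr2⟩ := hAp (w : FN (N * p)) w.ne_zero c
  let ru : (FN (N * p))ˣ := Units.mk0 r hr0
  let f : DN (N * p) m := ⟨ru ^ m, pow_mem_divBy m ru⟩ * f₁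
  have hfv : ((f : (FN (N * p))ˣ) : FN (N * p)) = r ^ m * ((f₁ : (FN (N * p))ˣ) : FN (N * p)) := by
    rw [Subgroup.coe_mul, Units.val_mul]
    rfl
  have hw' : ((f₂ : (FN (N * p))ˣ) : FN (N * p)) =
      (w : FN (N * p)) ^ m * ((f₁ : (FN (N * p))ˣ) : FN (N * p)) := by
    have := congrArg (fun u : (FN (N * p))ˣ => (u : FN (N * p))) hw
    simp only [Units.val_pow_eq_pow_val, Units.val_div_eq_div_val] at this
    rw [this, div_mul_cancel₀ _ (f₁ : (FN (N * p))ˣ).ne_zero]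
  have hfv2 : ((f : (FN (N * p))ˣ) : FN (N * p)) =
      (r / (w : FN (N * p))) ^ m * ((f₂ : (FN (N * p))ˣ) : FN (N * p)) := by
    rw [hfv, hw', div_pow, ← mul_assoc, div_mul_cancel₀ _ (pow_ne_zero _ w.ne_zero)]
  have hE1 : Dq A ((p : Kb) ^ c) (((f : (FN (N * p))ˣ) : FN (N * p)) : LaurentSeries Kb) := by
    rw [hfv]
    exact W.dq_mul hpc (W.dq_pow hpc hr1 m) hD₁
  have hE2 : Dq A ((p : Kb) ^ c)
      ((S35.WF N p ((f : (FN (N * p))ˣ) : FN (N * p)) : FN (N * p)) : LaurentSeries Kb) := by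
    rw [hfv2, map_mul, map_pow]
    exact W.dq_mul hpc (W.dq_pow hpc hr2 m) hD₂
  obtain ⟨φ₁, hφ₁, e₁⟩ := W.dq_iff.1 hE1
  obtain ⟨φ₂, hφ₂, e₂⟩ := W.dq_iff.1 hE2
  have ha0 : algebraMap Kb (FN (N * p)) ((p : Kb) ^ c) ≠ 0 := by simpa using hp0
  have hC0 : (HahnSeries.C ((p : Kb) ^ c) : LaurentSeries Kb) ≠ 0 := by
    simpa using hp0
  refine ⟨f, (algebraMap Kb (FN (N * p)) ((p : Kb) ^ c))⁻¹ *
    (((f : (FN (N * p))ˣ) : FN (N * p)) - 1), ?_, ?_, ?_, ?_⟩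
  · rw [Vm.mk_mul, (Vm.mk_eq_zero_iff _).2 ⟨ru, rfl⟩, zero_add, hf₁]
  · rw [← mul_assoc, mul_inv_cancel₀ ha0, one_mul]; ring
  · have : (((algebraMap Kb (FN (N * p)) ((p : Kb) ^ c))⁻¹ *
        (((f : (FN (N * p))ˣ) : FN (N * p)) - 1) : FN (N * p)) : LaurentSeries Kb) = φ₁ := by
      have h1 : (((algebraMap Kb (FN (N * p)) ((p : Kb) ^ c))⁻¹ *
        (((f : (FN (N * p))ˣ) : FN (N * p)) - 1) : FN (N * p)) : LaurentSeries Kb) =
          (HahnSeries.C ((p : Kb) ^ c))⁻¹ *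
            ((((f : (FN (N * p))ˣ) : FN (N * p)) : LaurentSeries Kb) - 1) := by
        rw [← coe_algebraMap_FN (N := N * p)]; rfl
      rw [h1, e₁, add_sub_cancel_left, ← mul_assoc, inv_mul_cancel₀ hC0, one_mul]
    rw [this]; exact hφ₁
  · have : ((S35.WF N p ((algebraMap Kb (FN (N * p)) ((p : Kb) ^ c))⁻¹ *
        (((f : (FN (N * p))ˣ) : FN (N * p)) - 1)) : FN (N * p)) : LaurentSeries Kb) = φ₂ := by
      rw [map_mul, map_inv₀, AlgEquiv.commutes, map_sub, map_one]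
      have h1 : (((algebraMap Kb (FN (N * p)) ((p : Kb) ^ c))⁻¹ *
        (S35.WF N p ((f : (FN (N * p))ˣ) : FN (N * p)) - 1) : FN (N * p)) : LaurentSeries Kb) =
          (HahnSeries.C ((p : Kb) ^ c))⁻¹ *
            (((S35.WF N p ((f : (FN (N * p))ˣ) : FN (N * p)) : FN (N * p)) : LaurentSeries Kb) - 1) := by
        rw [← coe_algebraMap_FN (N := N * p)]; rfl
      rw [h1, e₂, add_sub_cancel_left, ← mul_assoc, inv_mul_cancel₀ hC0, one_mul]
    rw [this]; exact hφ₂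

end Fermat.Agent.S33.N1
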