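import Fermat.Agent.S33.Br
import Fermat.Agent.S33.N1.Defs
import Fermat.Agent.S33.N1.Arch

/-!
# S33 (N1), leaf (I): a class of `Br` has positive depth on both branches
-/

set_option autoImplicit false

noncomputable section

namespace Fermat.Agent.S33.N1

open AlgebraicCurve ModularCurve
open Fermat.Agent.S24 (Kb FN)
open Fermat.Agent.S18 (IntA SmallA)
open Fermat.Agent.S35 (GI GS WF)
open Fermat.Agent.GES Fermat.Agent.NEW

theorem init_not_smallA_one (A : ValuationSubring Kb) : ¬ SmallA A (1 : LaurentSeries Kb) := by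
  intro h
  have := h 0
  rw [HahnSeries.coeff_one, if_pos rfl] at this
  exact ((ValuationSubring.mem_nonunits_iff A).1 this).ne (map_one _)

theorem init_intA_C_mul {A : ValuationSubring Kb} {a : Kb} (ha : a ∈ A) {γ : LaurentSeries Kb}
    (hγ : IntA A γ) : IntA A (HahnSeries.C a * γ) := by
  intro n
  rw [HahnSeries.C_mul_eq_smul, HahnSeries.coeff_smul]
  exact A.mul_mem _ _ ha (hγ n)

/-- monotonicity of the depth. -/
theorem init_dq_mono {A : ValuationSubring Kb} {c c' a : Kb} (ha : a ∈ A) (hc : c = c' * a)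
    {g : LaurentSeries Kb} (h : Dq A c g) : Dq A c' g := by
  obtain ⟨β, γ, hβ, hβ', hγ, e⟩ := h
  refine ⟨β, HahnSeries.C a * γ, hβ, hβ', init_intA_C_mul ha hγ, ?_⟩
  rw [e, hc, map_mul, mul_assoc]

/-- `X ≡ Y ≢ 0` implies positive depth of `X / Y`. -/
theorem dq_of_cong {p : ℕ} (hp : p.Prime) (A : ValuationSubring Kb) (hA : A.LiesOverPrime p)
    {N : ℕ} [NeZero N] (X Y : FN N) (hY : IntA A Y.1) (hY' : ¬ SmallA A Y.1)
    (hXY : SmallA A (X.1 - Y.1)) :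
    ∃ π ∈ A.nonunits, π ≠ 0 ∧ Dq A π ((X / Y : FN N) : LaurentSeries Kb) := by
  have hGS : GS A (X - Y : FN N).1 :=
    ⟨X.1 - Y.1, 1, hXY, IntA.one, init_not_smallA_one A, by rw [mul_one]; rfl⟩
  obtain ⟨c, hc, hc0, α, β, hα, hβ, hβ', e⟩ := exists_depth hp A hA (X - Y) hGS
  refine ⟨c, hc, hc0, Y.1 * β, α, IntA.mul hY hβ, not_smallA_mul hY hβ hY' hβ', hα, ?_⟩
  have hY0 : Y.1 ≠ 0 := not_smallA_ne_zero hY'
  have e1 : ((X / Y : FN N) : LaurentSeries Kb) = X.1 / Y.1 := rfl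
  have e2 : (X - Y : FN N).1 = X.1 - Y.1 := rfl
  have hC : (HahnSeries.C c : LaurentSeries Kb) * HahnSeries.C c⁻¹ = 1 := by
    rw [← map_mul, mul_inv_cancel₀ hc0, map_one]
  have e3 : (HahnSeries.C c : LaurentSeries Kb) * (HahnSeries.C c⁻¹ * (X.1 - Y.1) * β) =
      (X.1 - Y.1) * β := by
    rw [← mul_assoc, ← mul_assoc, hC, one_mul]
  rw [e1, ← e, e2, e3, ← mul_assoc, div_mul_cancel₀ _ hY0]
  ring

/-- change of representative by a constant. -/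
theorem exists_rep_const {N m : ℕ} [NeZero m] (f : DN N m) (c : Kb) (hc : c ≠ 0) :
    ∃ f' : DN N m, Vm.mk f' = Vm.mk f ∧
      ((f' : (FN N)ˣ) : FN N) = algebraMap Kb (FN N) c⁻¹ * ((f : (FN N)ˣ) : FN N) := by
  obtain ⟨c1, hc1⟩ := IsAlgClosed.exists_pow_nat_eq (c⁻¹ : Kb) (Nat.pos_of_ne_zero (NeZero.ne m))
  have hc10 : c1 ≠ 0 := by
    rintro rfl
    rw [zero_pow (NeZero.ne m)] at hc1
    exact inv_ne_zero hc hc1.symm
  have h0 : algebraMap Kb (FN N) c1 ≠ 0 := by simpa using hc10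
  let w : (FN N)ˣ := Units.mk0 _ h0
  refine ⟨⟨w ^ m, pow_mem_divBy m w⟩ * f, ?_, ?_⟩
  · rw [Vm.mk_mul, (Vm.mk_eq_zero_iff _).2 ⟨w, rfl⟩, zero_add]
  · rw [Subgroup.coe_mul, Units.val_mul]
    congr 1
    show (algebraMap Kb (FN N) c1) ^ m = _
    rw [← map_pow, hc1]

theorem init {p : ℕ} (hp : p.Prime) (A : ValuationSubring Kb) (hA : A.LiesOverPrime p)
    (N m : ℕ) [NeZero N] [NeZero p] [NeZero m] (x : VN (N * p) m) (hx : x ∈ Br A N p m) :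
    ∃ π ∈ A.nonunits, π ≠ 0 ∧ Dinf A N p m π x ∧ Dzero A N p m π x := by
  obtain ⟨f, rfl, ⟨c, X, Y, hc, -, hY, hY', hXY, e⟩, ⟨c', X', Y', hc', -, hY1, hY1', hXY', e'⟩⟩ := hx
  obtain ⟨π₁, h1, h10, hD1⟩ := dq_of_cong hp A hA X Y hY hY' hXY
  obtain ⟨π₂, h2, h20, hD2⟩ := dq_of_cong hp A hA X' Y' hY1 hY1' hXY'
  obtain ⟨f₁, hf₁, ef₁⟩ := exists_rep_const f c hc
  obtain ⟨f₂, hf₂, ef₂⟩ := exists_rep_const f c' hc'
  have hcc : algebraMap Kb (FN (N * p)) c ≠ 0 := by simpa using hc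
  have hcc' : algebraMap Kb (FN (N * p)) c' ≠ 0 := by simpa using hc'
  have E1 : ((f₁ : (FN (N * p))ˣ) : FN (N * p)) = X / Y := by
    rw [ef₁, e, map_inv₀, ← mul_assoc, inv_mul_cancel₀ hcc, one_mul]
  have E2 : WF N p ((f₂ : (FN (N * p))ˣ) : FN (N * p)) = X' / Y' := by
    rw [ef₂, map_mul, e', AlgEquiv.commutes, map_inv₀, ← mul_assoc, inv_mul_cancel₀ hcc', one_mul]
  have hI1 : Dinf A N p m π₁ (Vm.mk f) := ⟨f₁, hf₁, by rw [E1]; exact hD1⟩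
  have hI2 : Dzero A N p m π₂ (Vm.mk f) := ⟨f₂, hf₂, by rw [E2]; exact hD2⟩
  rcases A.mem_or_inv_mem (π₁ / π₂) with h | h
  · -- π₁ = π₂ * a
    refine ⟨π₂, h2, h20, ?_, hI2⟩
    obtain ⟨g, hg, hD⟩ := hI1
    exact ⟨g, hg, init_dq_mono h (by field_simp) hD⟩
  · refine ⟨π₁, h1, h10, hI1, ?_⟩
    obtain ⟨g, hg, hD⟩ := hI2
    refine ⟨g, hg, init_dq_mono h ?_ hD⟩
    rw [inv_div]
    field_simp

end Fermat.Agent.S33.N1
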