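import Fermat.Agent.S33.N1.Step
import Fermat.Agent.S33.N1.Arch
import Fermat.Agent.GES.RedGal

set_option autoImplicit false

/-!
# S33 / N1 / Iter : iteration of the contraction step: both depths are infinite
-/

noncomputable section

namespace Fermat.Agent.S33.N1

open AlgebraicCurve ModularCurve
open Fermat.Agent.S24 (Kb FN)
open Fermat.Agent.S18 (IntA SmallA)
open Fermat.Agent.GES Fermat.Agent.NEW Fermat.Agent.S35

variable {A : ValuationSubring Kb}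

theorem intA_C_mul {a : Kb} (ha : a ∈ A) {γ : LaurentSeries Kb} (hγ : IntA A γ) :
    IntA A (HahnSeries.C a * γ) := by
  intro n
  rw [HahnSeries.C_mul_eq_smul, HahnSeries.coeff_smul, smul_eq_mul]
  exact A.mul_mem _ _ ha (hγ n)

theorem dq_mono_aux {c c' a : Kb} (ha : a ∈ A) (hc : c = c' * a) {g : LaurentSeries Kb}
    (h : Dq A c g) : Dq A c' g := by
  obtain ⟨β, γ, hβ, hβ', hγ, e⟩ := h
  exact ⟨β, HahnSeries.C a * γ, hβ, hβ', intA_C_mul ha hγ, by rw [e, hc, map_mul, mul_assoc]⟩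

variable {N p m : ℕ} [NeZero N] [NeZero p] [NeZero m]

theorem Dinf.mono_aux {c c' a : Kb} (ha : a ∈ A) (hc : c = c' * a) {x : VN (N * p) m}
    (h : Dinf A N p m c x) : Dinf A N p m c' x := by
  obtain ⟨f, e, hf⟩ := h
  exact ⟨f, e, dq_mono_aux ha hc hf⟩

theorem Dzero.mono_aux {c c' a : Kb} (ha : a ∈ A) (hc : c = c' * a) {x : VN (N * p) m}
    (h : Dzero A N p m c x) : Dzero A N p m c' x := by
  obtain ⟨f, e, hf⟩ := h
  exact ⟨f, e, dq_mono_aux ha hc hf⟩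

theorem zeta_sub_one_mem_nonunits (hp : p.Prime) (hA : A.LiesOverPrime p) (ζ : Kbˣ)
    (hζ : ζ ^ p = 1) : (ζ : Kb) - 1 ∈ A.nonunits := by
  obtain ⟨z, hz⟩ := exists_unit_of_pow_eq_one A hp.ne_zero ζ hζ
  have h1 : (z : A) ^ p = 1 := by
    apply Subtype.ext
    rw [SubmonoidClass.coe_pow, hz, ← Units.val_pow_eq_pow_val, hζ]
    rfl
  have h2 := residue_eq_one_of_pow_eq_one A hp hA (z : A) h1
  have h3 : (z : A) - 1 ∈ IsLocalRing.maximalIdeal A := by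
    rw [← IsLocalRing.residue_eq_zero_iff, map_sub, h2, map_one, sub_self]
  rw [← ValuationSubring.coe_mem_nonunits_iff] at h3
  rw [← hz]
  exact h3

/-- the statement on series, to be supplied by `step_series`. -/
def StepS (A : ValuationSubring Kb) (p : ℕ) [NeZero p] (ζ : Kbˣ) : Prop :=
  ∀ (c c' : Kb) (g b : LaurentSeries Kb),
    qExpand Kb p g = ∏ i : Fin p, S28.twist (ζ ^ (i : ℕ)) b → c ∈ A → Dq A c b →
      c * ((ζ : Kb) - 1) / c' ∈ A → c ^ p / c' ∈ A → c' ≠ 0 → Dq A c' g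

theorem deep_pow (hp : p.Prime) (hpN : ¬ p ∣ N) (ζ : Kbˣ) (hζ : IsPrimitiveRoot ζ p)
    (hS : StepS A p ζ) (x : VN (N * p) m) (ha : alphaV N p m x = 0) (hb : betaV N p m x = 0)
    (ϖ : Kb) (hϖ : ϖ ∈ A.nonunits) (hϖ0 : ϖ ≠ 0) (hl : ((ζ : Kb) - 1) / ϖ ∈ A)
    (h1 : Dinf A N p m ϖ x) (h2 : Dzero A N p m ϖ x) (k : ℕ) :
    Dinf A N p m (ϖ ^ (k + 1)) x ∧ Dzero A N p m (ϖ ^ (k + 1)) x := by
  have hϖA : ϖ ∈ A := A.nonunits_subset hϖ
  induction k with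
  | zero => rw [zero_add, pow_one]; exact ⟨h1, h2⟩
  | succ k ih =>
    have hnu : ϖ ^ (k + 1 + 1) ∈ A.nonunits := by
      rw [ValuationSubring.mem_nonunits_iff] at hϖ ⊢
      rw [map_pow]
      exact pow_lt_one₀ zero_le hϖ (by omega)
    have hS' : ∀ g b : LaurentSeries Kb,
        qExpand Kb p g = ∏ i : Fin p, S28.twist (ζ ^ (i : ℕ)) b →
          Dq A (ϖ ^ (k + 1)) b → Dq A (ϖ ^ (k + 1 + 1)) g := by
      intro g b hg hb'
      refine hS _ _ g b hg (pow_mem hϖA _) hb' ?_ ?_ (pow_ne_zero _ hϖ0)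
      · have : ϖ ^ (k + 1) * ((ζ : Kb) - 1) / ϖ ^ (k + 1 + 1) = ((ζ : Kb) - 1) / ϖ := by
          rw [pow_succ ϖ (k + 1)]
          field_simp
        rw [this]; exact hl
      · have h2p := hp.two_le
        have hle : k + 1 + 1 ≤ (k + 1) * p := by nlinarith
        have : (ϖ ^ (k + 1)) ^ p / ϖ ^ (k + 1 + 1) = ϖ ^ ((k + 1) * p - (k + 1 + 1)) := by
          rw [← pow_mul, eq_comm, pow_sub₀ _ hϖ0 hle, div_eq_mul_inv]
        rw [this]; exact pow_mem hϖA _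
    exact ⟨dinf_of_dzero hp hpN ζ hζ _ _ hnu hS' x ih.2 ha,
      dzero_of_dinf hp hpN ζ hζ _ _ hnu hS' x ih.1 hb⟩

/-- both depths are infinite. -/
theorem deep_both (hp : p.Prime) (hpN : ¬ p ∣ N) (hA : A.LiesOverPrime p) (ζ : Kbˣ)
    (hζ : IsPrimitiveRoot ζ p) (hS : StepS A p ζ) (x : VN (N * p) m)
    (ha : alphaV N p m x = 0) (hb : betaV N p m x = 0)
    (π : Kb) (hπ : π ∈ A.nonunits) (hπ0 : π ≠ 0)
    (h1 : Dinf A N p m π x) (h2 : Dzero A N p m π x) (c : ℕ) :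
    Dinf A N p m ((p : Kb) ^ c) x ∧ Dzero A N p m ((p : Kb) ^ c) x := by
  have hl : (ζ : Kb) - 1 ∈ A.nonunits := zeta_sub_one_mem_nonunits hp hA ζ hζ.pow_eq_one
  have hl0 : (ζ : Kb) - 1 ≠ 0 := by
    intro h
    have h3 : ζ = 1 := Units.ext (by rw [Units.val_one]; exact sub_eq_zero.1 h)
    exact hζ.ne_one hp.one_lt h3
  obtain ⟨ϖ, hϖ, hϖ0, hl', g1, g2⟩ : ∃ ϖ : Kb, ϖ ∈ A.nonunits ∧ ϖ ≠ 0 ∧ ((ζ : Kb) - 1) / ϖ ∈ A ∧
      Dinf A N p m ϖ x ∧ Dzero A N p m ϖ x := by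
    rcases A.mem_or_inv_mem (π / ((ζ : Kb) - 1)) with h | h
    · refine ⟨(ζ : Kb) - 1, hl, hl0, by rw [div_self hl0]; exact A.one_mem,
        h1.mono_aux h (by field_simp), h2.mono_aux h (by field_simp)⟩
    · rw [inv_div] at h
      exact ⟨π, hπ, hπ0, h, h1, h2⟩
  obtain ⟨k, a, haA, hk⟩ := exists_pow_eq_p_mul hp A hA hϖ
  have key := deep_pow hp hpN ζ hζ hS x ha hb ϖ hϖ hϖ0 hl' g1 g2 (k * c)
  have e : ϖ ^ (k * c + 1) = (p : Kb) ^ c * (a ^ c * ϖ) := by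
    rw [pow_succ, pow_mul, hk, mul_pow, mul_assoc]
  have hm : a ^ c * ϖ ∈ A := A.mul_mem _ _ (pow_mem haA _) (A.nonunits_subset hϖ)
  exact ⟨key.1.mono_aux hm e, key.2.mono_aux hm e⟩

end Fermat.Agent.S33.N1
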