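import Mathlib

/-!
# S33 (N1): the algebraic core of the contraction

`∏ j, (1 + c * u j) ≡ 1` modulo `(c * J, c ^ p)` as soon as the power sums
`∑ j, u j ^ i` (`0 < i < p`) lie in the ideal `J` and `1, …, p - 1` are units.
-/

set_option autoImplicit false

namespace Fermat.Agent.S33

open Finset MvPolynomial

section newton

variable {R : Type*} [CommRing R] {ι : Type*} [Fintype ι]

/-- the value of the `k`-th elementary symmetric polynomial. -/
noncomputable def esv (u : ι → R) (k : ℕ) : R :=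
  ∑ t ∈ powersetCard k (univ : Finset ι), ∏ i ∈ t, u i

theorem esv_eq_aeval (u : ι → R) (k : ℕ) : esv u k = aeval u (esymm ι R k) := by
  simp [esv, esymm, map_sum, map_prod]

theorem psum_aeval (u : ι → R) (k : ℕ) : aeval u (psum ι R k) = ∑ j, u j ^ k := by
  simp [psum, map_sum]

/-- Newton: the elementary symmetric functions `e_k`, `0 < k < p`, lie in `J`. -/
theorem esv_mem (p : ℕ) (J : Ideal R)
    (hunit : ∀ k, 0 < k → k < p → IsUnit ((k : ℕ) : R)) (u : ι → R)
    (hps : ∀ i, 0 < i → i < p → ∑ j, u j ^ i ∈ J) (k : ℕ) (hk0 : 0 < k) (hkp : k < p) :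
    esv u k ∈ J := by
  have hN := congrArg (aeval u) (mul_esymm_eq_sum ι R k)
  simp only [map_mul, map_natCast, map_pow, map_neg, map_one, map_sum, psum_aeval,
    ← esv_eq_aeval] at hN
  have hmem : ((k : ℕ) : R) * esv u k ∈ J := by
    rw [hN]
    refine J.mul_mem_left _ (J.sum_mem ?_)
    intro a ha
    rw [mem_filter, HasAntidiagonal.mem_antidiagonal] at ha
    exact J.mul_mem_left _ (hps a.2 (by omega) (by omega))
  obtain ⟨v, hv⟩ := hunit k hk0 hkp
  have : esv u k = (↑v⁻¹ : R) * (((k : ℕ) : R) * esv u k) := by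
    rw [← mul_assoc, ← hv, Units.inv_mul, one_mul]
  rw [this]
  exact J.mul_mem_left _ hmem

theorem prod_one_add_eq_sum_esv (u : ι → R) (c : R) :
    ∏ j, (1 + c * u j) = ∑ k ∈ range (Fintype.card ι + 1), c ^ k * esv u k := by
  rw [prod_one_add, sum_powerset, card_univ]
  refine sum_congr rfl fun k _ => ?_
  rw [esv, mul_sum]
  refine sum_congr rfl fun t ht => ?_
  rw [prod_mul_distrib, prod_const, (mem_powersetCard.1 ht).2]

/-- **the contraction estimate**: `∏ (1 + c u_j) ≡ 1` modulo `(c J, c ^ p)`. -/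
theorem prod_one_add_sub_one_mem (p : ℕ) (hcard : Fintype.card ι = p) (J : Ideal R)
    (hunit : ∀ k, 0 < k → k < p → IsUnit ((k : ℕ) : R)) (u : ι → R)
    (hps : ∀ i, 0 < i → i < p → ∑ j, u j ^ i ∈ J) (c : R) :
    ∏ j, (1 + c * u j) - 1 ∈ Ideal.span {c} * J ⊔ Ideal.span {c ^ p} := by
  rw [prod_one_add_eq_sum_esv, hcard, sum_range_succ]
  have h0 : c ^ 0 * esv u 0 = 1 := by simp [esv]
  have hlast : c ^ p * esv u p ∈ Ideal.span {c} * J ⊔ Ideal.span {c ^ p} :=
    Ideal.mem_sup_right (Ideal.mul_mem_right _ _ (Ideal.mem_span_singleton_self _))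
  rcases p with _ | p'
  · have : esv u 0 = 1 := by simp [esv]
    simp [this]
  rw [sum_range_succ', h0]
  have e : ∑ k ∈ range p', c ^ (k + 1) * esv u (k + 1) + 1 + c ^ (p' + 1) * esv u (p' + 1) - 1 =
      ∑ k ∈ range p', c ^ (k + 1) * esv u (k + 1) + c ^ (p' + 1) * esv u (p' + 1) := by ring
  rw [e]
  refine Ideal.add_mem _ (Ideal.sum_mem _ fun k hk => Ideal.mem_sup_left ?_) hlast
  rw [mem_range] at hk
  have hk' := esv_mem (p' + 1) J hunit u hps (k + 1) (by omega) (by omega)
  rw [pow_succ', mul_assoc]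
  exact Ideal.mul_mem_mul (Ideal.mem_span_singleton_self _) (J.mul_mem_left _ hk')

end newton

end Fermat.Agent.S33
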