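import Fermat.Agent.GES.Star
import Fermat.Agent.S35.C.NP

set_option autoImplicit false

/-!
# S33 / N1a : the `q`-expansions of the two norms `F_{Np} → F_N` of an arbitrary function

In the variable `t = q^{1/p}`:  `(N_α y)(q) = y(q) ∏_i (w y)(ζ^i t)`, `(N_β y)(q) = (w y)(q) ∏_i y(ζ^i t)`.
-/

noncomputable section

namespace Fermat.Agent.S33.N1

open AlgebraicCurve ModularCurve
open Fermat.Agent.S24 (Kb FN iotaK jF)
open Fermat.Agent.GES Fermat.Agent.S35

variable (N p : ℕ) [NeZero N] [NeZero p]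

/-- the inclusion of `F_N` in `ℚ̄((q))`. -/
def coeHom (M : ℕ) [NeZero M] : FN M →+* LaurentSeries Kb := algebraMap (FN M) (LaurentSeries Kb)

theorem coeHom_apply (M : ℕ) [NeZero M] (y : FN M) : coeHom M y = (y : LaurentSeries Kb) := rfl

/-- the `p + 1` embeddings of `F_{Np}` over `F_N`. -/
def embFam (ζ : Kbˣ) : Option (Fin p) → (FN (N * p) →+* LaurentSeries Kb)
  | none => (qExpand Kb p).comp (coeHom (N * p))
  | some i => ((S28.twist (ζ ^ (i : ℕ))).comp (coeHom (N * p))).comp
      ((WF N p : FN (N * p) ≃ₐ[Kb] FN (N * p)) : FN (N * p) →+* FN (N * p))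

theorem embFam_none (ζ : Kbˣ) (y : FN (N * p)) :
    embFam N p ζ none y = qExpand Kb p (y : LaurentSeries Kb) := by
  rw [embFam, RingHom.comp_apply, coeHom_apply]

theorem embFam_some (ζ : Kbˣ) (i : Fin p) (y : FN (N * p)) :
    embFam N p ζ (some i) y = S28.twist (ζ ^ (i : ℕ)) (WF N p y : LaurentSeries Kb) := by
  rw [embFam, RingHom.comp_apply, RingHom.comp_apply, coeHom_apply]
  rfl

theorem embFam_alpha (hc : Nat.Coprime p N) (ζ : Kbˣ) (hζ : ζ ^ p = 1) (a : Option (Fin p))
    (r : FN N) :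
    embFam N p ζ a (heckeAlphaBar Kb N p r) = qExpand Kb p (r : LaurentSeries Kb) := by
  cases a with
  | none => rw [embFam_none, coe_heckeAlphaBar]
  | some i =>
    rw [embFam_some, WF_alpha N p hc, coe_heckeBetaBar]
    apply twist_qExpand_of_pow_eq_one
    rw [← pow_mul, mul_comm, pow_mul, hζ, one_pow]

theorem embFam_beta_some (hc : Nat.Coprime p N) (ζ : Kbˣ) (i : Fin p) (r : FN N) :
    embFam N p ζ (some i) (heckeBetaBar Kb N p r) =
      S28.twist (ζ ^ (i : ℕ)) (r : LaurentSeries Kb) := by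
  rw [embFam_some, WF_beta N p hc, coe_heckeAlphaBar]

theorem embFam_beta_none (ζ : Kbˣ) (r : FN N) :
    embFam N p ζ none (heckeBetaBar Kb N p r) =
      qExpand Kb p (qExpand Kb p (r : LaurentSeries Kb)) := by
  rw [embFam_none, coe_heckeBetaBar]

theorem embFam_injective (hp : 2 ≤ p) (hc : Nat.Coprime p N) (ζ : Kbˣ)
    (hζ : IsPrimitiveRoot ζ p) : Function.Injective (embFam N p ζ) := by
  have hj : ((jF N : FN N) : LaurentSeries Kb) = jqModC Kb := by
    show S24.Jser 1 = _
    rw [S24.degree_Jser_one]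
  have hsome : ∀ i : Fin p, (embFam N p ζ (some i) (heckeBetaBar Kb N p (jF N))).coeff (-1) =
      (((ζ ^ (i : ℕ)) ^ (-1 : ℤ) : Kbˣ) : Kb) := by
    intro i
    rw [embFam_beta_some N p hc, hj, S28.twist_coeff, coeff_jqModC_neg_one, mul_one]
  have hnone : (embFam N p ζ none (heckeBetaBar Kb N p (jF N))).coeff (-1) = 0 := by
    rw [embFam_beta_none, qExpand_coeff_of_not_dvd]
    intro hd
    have h1 : (p : ℤ) ∣ 1 := (dvd_neg.mp hd)
    have h2 := Int.le_of_dvd one_pos h1
    omega
  intro a b hab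
  have hab' := congrArg (fun φ : FN (N * p) →+* LaurentSeries Kb =>
    (φ (heckeBetaBar Kb N p (jF N))).coeff (-1)) hab
  cases a with
  | none =>
    cases b with
    | none => rfl
    | some i =>
      rw [hnone, hsome] at hab'
      exact absurd hab'.symm (Units.ne_zero _)
  | some i =>
    cases b with
    | none =>
      rw [hnone, hsome] at hab'
      exact absurd hab' (Units.ne_zero _)
    | some k =>
      rw [hsome, hsome] at hab'
      have h1 := Units.ext hab'
      rw [zpow_neg_one, zpow_neg_one, inv_inj] at h1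
      have h2 := hζ.pow_inj i.2 k.2 h1
      rw [Fin.ext h2]

/-- **(N1a)** the `q`-expansion of the norm along `α`. -/
theorem qExpand_normA (hp : p.Prime) (hpN : ¬ p ∣ N) (ζ : Kbˣ) (hζ : IsPrimitiveRoot ζ p)
    (y : FN (N * p)) :
    qExpand Kb p (normA N p y : LaurentSeries Kb) =
      qExpand Kb p (y : LaurentSeries Kb) *
        ∏ i : Fin p, S28.twist (ζ ^ (i : ℕ)) (WF N p y : LaurentSeries Kb) := by
  have hc : Nat.Coprime p N := (Nat.Prime.coprime_iff_not_dvd hp).2 hpN
  let _ := algA N p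
  have := finiteDimensional_algA N p
  have key := norm_eq_prod_of_embeddings (F := FN N) (E := FN (N * p)) (embFam N p ζ)
    (embFam_injective N p hp.two_le hc ζ hζ)
    (fun a a' r => (embFam_alpha N p hc ζ hζ.pow_eq_one a r).trans
      (embFam_alpha N p hc ζ hζ.pow_eq_one a' r).symm)
    (by rw [Fintype.card_option, Fintype.card_fin, finrank_algA N p hp hpN])
    y none
  rw [Fintype.prod_option] at key
  have hL : embFam N p ζ none (algebraMap (FN N) (FN (N * p)) (Algebra.norm (FN N) y)) =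
      qExpand Kb p (normA N p y : LaurentSeries Kb) :=
    embFam_alpha N p hc ζ hζ.pow_eq_one none (normA N p y)
  rw [hL, embFam_none] at key
  simp only [embFam_some] at key
  exact key

/-- **(N1a)** the `q`-expansion of the norm along `β`. -/
theorem qExpand_normB (hp : p.Prime) (hpN : ¬ p ∣ N) (ζ : Kbˣ) (hζ : IsPrimitiveRoot ζ p)
    (y : FN (N * p)) :
    qExpand Kb p (NEW.normB N p y : LaurentSeries Kb) =
      qExpand Kb p (WF N p y : LaurentSeries Kb) *
        ∏ i : Fin p, S28.twist (ζ ^ (i : ℕ)) (y : LaurentSeries Kb) := by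
  have hc : Nat.Coprime p N := (Nat.Prime.coprime_iff_not_dvd hp).2 hpN
  rw [normB_eq N p hc, qExpand_normA N p hp hpN ζ hζ, WF_WF N p hc]

end Fermat.Agent.S33.N1
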