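import Fermat.Agent.S33.N1.Newton
import Fermat.Agent.S28.Series

/-!
# S33 (N1): `∏_j (1 + c u(ζ^j t)) ≡ 1` modulo `(p c, c ^ p)` for integral Laurent series
-/

set_option autoImplicit false

noncomputable section

namespace Fermat.Agent.S33

open Finset Fermat.Agent.S28

variable {K : Type*} [Field K] (A : ValuationSubring K)

/-- the ring of Laurent series with coefficients in `A`. -/
def intS : Subring (LaurentSeries K) where
  carrier := {x | ∀ n, x.coeff n ∈ A}
  mul_mem' := by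
    intro x y hx hy n
    rw [HahnSeries.coeff_mul]
    exact sum_mem fun ij _ => A.mul_mem _ _ (hx _) (hy _)
  one_mem' := by
    intro n
    rw [HahnSeries.coeff_one]
    split_ifs
    · exact A.one_mem
    · exact A.zero_mem
  add_mem' := by
    intro x y hx hy n
    rw [HahnSeries.coeff_add]
    exact A.add_mem _ _ (hx _) (hy _)
  zero_mem' := by
    intro n
    rw [HahnSeries.coeff_zero]
    exact A.zero_mem
  neg_mem' := by
    intro x hx n
    rw [HahnSeries.coeff_neg]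
    exact A.neg_mem _ (hx _)

theorem mem_intS {x : LaurentSeries K} : x ∈ intS A ↔ ∀ n, x.coeff n ∈ A := Iff.rfl

theorem C_mem_intS {c : K} (hc : c ∈ A) : HahnSeries.C c ∈ intS A := by
  intro n
  rw [HahnSeries.C_apply, HahnSeries.coeff_single]
  split_ifs
  · exact hc
  · exact A.zero_mem

theorem unit_zpow_mem {p : ℕ} (hp : p ≠ 0) (ξ : Kˣ) (hξ : ξ ^ p = 1) (n : ℤ) :
    ((ξ ^ n : Kˣ) : K) ∈ A := by
  rw [← A.valuation_le_one_iff]
  have h0 : ((ξ ^ n : Kˣ) : K) ^ p = 1 := by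
    rw [← Units.val_pow_eq_pow_val, ← zpow_natCast, ← zpow_mul, mul_comm, zpow_mul, zpow_natCast,
      hξ, one_zpow, Units.val_one]
  have h1 : A.valuation ((ξ ^ n : Kˣ) : K) ^ p = 1 := by rw [← map_pow, h0, map_one]
  exact le_of_eq ((pow_eq_one_iff_of_nonneg zero_le hp).mp h1)

theorem twist_mem_intS {p : ℕ} (hp : p ≠ 0) (ξ : Kˣ) (hξ : ξ ^ p = 1) {u : LaurentSeries K}
    (hu : u ∈ intS A) : twist ξ u ∈ intS A := by
  intro n
  rw [twist_coeff]
  exact A.mul_mem _ _ (unit_zpow_mem A hp ξ hξ n) (hu n)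

/-- the part of `u` supported on the multiples of `p`. -/
def pPart (p : ℕ) (u : LaurentSeries K) : LaurentSeries K where
  coeff n := if (p : ℤ) ∣ n then u.coeff n else 0
  isPWO_support' := u.isPWO_support.mono (by
    intro n hn
    simp only [Function.mem_support, ne_eq] at hn
    intro h
    apply hn
    rw [h]; simp)

theorem pPart_mem_intS (p : ℕ) {u : LaurentSeries K} (hu : u ∈ intS A) : pPart p u ∈ intS A := by
  intro n
  show (if (p : ℤ) ∣ n then u.coeff n else 0) ∈ A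
  split_ifs
  · exact hu n
  · exact A.zero_mem

theorem sum_twist_eq {p : ℕ} (hp : p ≠ 0) (ζ : Kˣ) (hζ : IsPrimitiveRoot ζ p)
    (u : LaurentSeries K) :
    ∑ i : Fin p, twist (ζ ^ (i : ℕ)) u = HahnSeries.C (p : K) * pPart p u := by
  ext n
  rw [HahnSeries.coeff_sum, HahnSeries.C_mul_eq_smul, HahnSeries.coeff_smul]
  simp only [twist_coeff]
  rw [← Finset.sum_mul]
  show _ = (p : K) • (if (p : ℤ) ∣ n then u.coeff n else 0)
  have hz : ∀ i : ℕ, (((ζ ^ i) ^ n : Kˣ) : K) = (((ζ ^ n : Kˣ) : K)) ^ i := by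
    intro i
    rw [← Units.val_pow_eq_pow_val, ← zpow_natCast, ← zpow_natCast, ← zpow_mul, ← zpow_mul,
      mul_comm]
  simp only [hz]
  rw [Fin.sum_univ_eq_sum_range (fun i => (((ζ ^ n : Kˣ) : K)) ^ i) p]
  split_ifs with h
  · have h1 : ζ ^ n = 1 := (hζ.zpow_eq_one_iff_dvd n).2 h
    rw [h1]
    simp
  · have h1 : ζ ^ n ≠ 1 := fun h1 => h ((hζ.zpow_eq_one_iff_dvd n).1 h1)
    have h2 : ((ζ ^ n : Kˣ) : K) ≠ 1 := fun h2 => h1 (Units.ext h2)
    have h3 : ((ζ ^ n : Kˣ) : K) ^ p = 1 := by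
      rw [← Units.val_pow_eq_pow_val, ← zpow_natCast, ← zpow_mul, mul_comm, zpow_mul, zpow_natCast,
        hζ.pow_eq_one, one_zpow, Units.val_one]
    have h4 := mul_geom_sum ((ζ ^ n : Kˣ) : K) p
    rw [h3, sub_self] at h4
    rw [(mul_eq_zero.mp h4).resolve_left (sub_ne_zero.mpr h2)]
    simp

theorem twist_C (ξ : Kˣ) (c : K) : twist ξ (HahnSeries.C c) = HahnSeries.C c := by
  ext n
  rw [twist_coeff, HahnSeries.C_apply, HahnSeries.coeff_single]
  split_ifs with h
  · subst h; simp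
  · simp

theorem natCast_inv_mem {p : ℕ} (hp : p.Prime) (hA : (p : K) ∈ A.nonunits) (k : ℕ) (hk0 : 0 < k)
    (hkp : k < p) : ((k : K))⁻¹ ∈ A := by
  by_contra hk
  have hk1 : A.valuation (k : K) < 1 := by
    rw [← A.valuation_le_one_iff, map_inv₀, not_le] at hk
    have h0 : A.valuation (k : K) ≠ 0 := by
      intro h0
      rw [h0, inv_zero] at hk
      exact absurd hk (not_lt.2 zero_le_one)
    exact (one_lt_inv₀ (zero_lt_iff.2 h0)).1 hk
  have hp1 : A.valuation (p : K) < 1 := (ValuationSubring.mem_nonunits_iff A).1 hA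
  have hcop : IsCoprime (k : ℤ) (p : ℤ) :=
    Nat.isCoprime_iff_coprime.2 ((Nat.coprime_comm.1 ((Nat.Prime.coprime_iff_not_dvd hp).2
      (Nat.not_dvd_of_pos_of_lt hk0 hkp))))
  obtain ⟨a, b, hab⟩ := hcop
  have hab' : ((a : ℤ) : K) * (k : K) + ((b : ℤ) : K) * (p : K) = 1 := by
    have := congrArg (Int.cast : ℤ → K) hab
    push_cast at this
    exact this
  have hint : ∀ z : ℤ, A.valuation ((z : ℤ) : K) ≤ 1 := fun z =>
    (A.valuation_le_one_iff _).2 (intCast_mem A z)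
  have h1 : A.valuation (((a : ℤ) : K) * (k : K)) < 1 := by
    rw [map_mul]
    exact lt_of_le_of_lt (mul_le_of_le_one_left' (hint a)) hk1
  have h2 : A.valuation (((b : ℤ) : K) * (p : K)) < 1 := by
    rw [map_mul]
    exact lt_of_le_of_lt (mul_le_of_le_one_left' (hint b)) hp1
  have h3 := Valuation.map_add_lt _ h1 h2
  rw [hab', map_one] at h3
  exact lt_irrefl _ h3

/-- **the contraction estimate for Laurent series.** -/
theorem prod_twist_one_add {p : ℕ} (hp : p.Prime) (hA : (p : K) ∈ A.nonunits) (ζ : Kˣ)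
    (hζ : IsPrimitiveRoot ζ p) {c : K} (hc : c ∈ A) {u : LaurentSeries K}
    (hu : ∀ n, u.coeff n ∈ A) :
    ∃ w1 w2 : LaurentSeries K, (∀ n, w1.coeff n ∈ A) ∧ (∀ n, w2.coeff n ∈ A) ∧
      ∏ i : Fin p, twist (ζ ^ (i : ℕ)) (1 + HahnSeries.C c * u) =
        1 + HahnSeries.C ((p : K) * c) * w1 + HahnSeries.C (c ^ p) * w2 := by
  have hp0 : p ≠ 0 := hp.ne_zero
  have hξ : ∀ i : ℕ, (ζ ^ i) ^ p = 1 := fun i => by
    rw [← pow_mul, mul_comm, pow_mul, hζ.pow_eq_one, one_pow]
  let U : Fin p → intS A := fun i => ⟨twist (ζ ^ (i : ℕ)) u, twist_mem_intS A hp0 _ (hξ i) hu⟩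
  let c' : intS A := ⟨HahnSeries.C c, C_mem_intS A hc⟩
  have hunit : ∀ k, 0 < k → k < p → IsUnit ((k : ℕ) : intS A) := by
    intro k hk0 hkp
    refine IsUnit.of_mul_eq_one ⟨HahnSeries.C ((k : K))⁻¹, C_mem_intS A
      (natCast_inv_mem A hp hA k hk0 hkp)⟩ ?_
    apply Subtype.ext
    have hk : (k : K) ≠ 0 := by
      intro h0
      have hcop : IsCoprime (k : ℤ) (p : ℤ) :=
        Nat.isCoprime_iff_coprime.2 ((Nat.coprime_comm.1 ((Nat.Prime.coprime_iff_not_dvd hp).2
          (Nat.not_dvd_of_pos_of_lt hk0 hkp))))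
      obtain ⟨a, b, hab⟩ := hcop
      have hab' := congrArg (Int.cast : ℤ → K) hab
      push_cast at hab'
      rw [h0, mul_zero, zero_add] at hab'
      have hp1 : A.valuation (p : K) < 1 := (ValuationSubring.mem_nonunits_iff A).1 hA
      have h2 : A.valuation (((b : ℤ) : K) * (p : K)) < 1 := by
        rw [map_mul]
        exact lt_of_le_of_lt (mul_le_of_le_one_left'
          ((A.valuation_le_one_iff _).2 (intCast_mem A b))) hp1
      rw [hab', map_one] at h2
      exact lt_irrefl _ h2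
    show ((k : ℕ) : LaurentSeries K) * HahnSeries.C ((k : K))⁻¹ = 1
    rw [← map_natCast (HahnSeries.C : K →+* LaurentSeries K), ← map_mul, mul_inv_cancel₀ hk,
      map_one]
  have hps : ∀ i, 0 < i → i < p → ∑ j, U j ^ i ∈ Ideal.span {((p : ℕ) : intS A)} := by
    intro i _ _
    rw [Ideal.mem_span_singleton']
    refine ⟨⟨pPart p (u ^ i), pPart_mem_intS A p (Subring.pow_mem (intS A) hu i)⟩, ?_⟩
    apply Subtype.ext
    have e : ((∑ j, U j ^ i : intS A) : LaurentSeries K) =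
        ∑ j : Fin p, twist (ζ ^ (j : ℕ)) (u ^ i) := by
      rw [AddSubmonoidClass.coe_finsetSum]
      refine Finset.sum_congr rfl fun j _ => ?_
      rw [map_pow]
      rfl
    rw [e, sum_twist_eq hp0 ζ hζ, mul_comm]
    show ((p : ℕ) : LaurentSeries K) * _ = _
    rw [← map_natCast (HahnSeries.C : K →+* LaurentSeries K)]
  have key := prod_one_add_sub_one_mem p (Fintype.card_fin p) _ hunit U hps c'
  rw [Ideal.span_singleton_mul_span_singleton, Submodule.mem_sup] at key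
  obtain ⟨y, hy, z, hz, hyz⟩ := key
  rw [Ideal.mem_span_singleton'] at hy hz
  obtain ⟨a, rfl⟩ := hy
  obtain ⟨b, rfl⟩ := hz
  refine ⟨a.1, b.1, a.2, b.2, ?_⟩
  have h1 := congrArg (Subtype.val) hyz
  have e : ((∏ j, (1 + c' * U j) - 1 : intS A) : LaurentSeries K) =
      ∏ i : Fin p, twist (ζ ^ (i : ℕ)) (1 + HahnSeries.C c * u) - 1 := by
    rw [AddSubgroupClass.coe_sub, SubmonoidClass.coe_finsetProd]
    congr 1
    refine Finset.prod_congr rfl fun j _ => ?_
    rw [map_add, map_one, map_mul, twist_C]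
    rfl
  rw [e] at h1
  have h2 : ((a * (c' * ((p : ℕ) : intS A)) + b * c' ^ p : intS A) : LaurentSeries K) =
      a.1 * (HahnSeries.C c * HahnSeries.C (p : K)) + b.1 * (HahnSeries.C c) ^ p := by
    rw [map_natCast (HahnSeries.C : K →+* LaurentSeries K)]
    rfl
  rw [h2] at h1
  rw [sub_eq_iff_eq_add'.1 h1.symm, map_mul, map_pow]
  ring

end Fermat.Agent.S33
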