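import Fermat.Agent.S33.N1.Defs
import Fermat.Agent.S33.N1.Alg
import Fermat.Agent.S33.N1.TwistProd
import Fermat.Agent.GES.TwistC

set_option autoImplicit false

/-!
# S33 / N1 : the contraction step for Laurent series (quotient form)
-/

noncomputable section

namespace Fermat.Agent.S33.N1

open AlgebraicCurve ModularCurve Finset
open Fermat.Agent.S24 (Kb FN)
open Fermat.Agent.S18 (IntA SmallA)
open Fermat.Agent.GES
open Fermat.Agent.S28 (twist twist_coeff)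

variable {A : ValuationSubring Kb}

theorem nonunits_mul' {a b : Kb} (ha : a ∈ A) (hb : b ∈ A.nonunits) : a * b ∈ A.nonunits := by
  rw [ValuationSubring.mem_nonunits_iff] at *
  rw [map_mul]
  exact lt_of_le_of_lt (mul_le_of_le_one_left' ((A.valuation_le_one_iff _).2 ha)) hb

theorem mem_of_nonunits {a : Kb} (ha : a ∈ A.nonunits) : a ∈ A := by
  rw [ValuationSubring.mem_nonunits_iff] at ha
  exact (A.valuation_le_one_iff _).1 ha.le

theorem intA_C {a : Kb} (ha : a ∈ A) : IntA A (HahnSeries.C a) := (mem_intS A).1 (C_mem_intS A ha)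

theorem coeff_C_mul (a : Kb) (x : LaurentSeries Kb) (n : ℤ) :
    (HahnSeries.C a * x).coeff n = a * x.coeff n := by
  rw [HahnSeries.C_mul_eq_smul, HahnSeries.coeff_smul, smul_eq_mul]

theorem smallA_C_mulS {a : Kb} (ha : a ∈ A.nonunits) {x : LaurentSeries Kb} (hx : IntA A x) :
    SmallA A (HahnSeries.C a * x) := by
  intro n
  rw [coeff_C_mul, mul_comm]
  exact nonunits_mul' (hx n) ha

theorem Dq.mono {c c₀ a : Kb} {g : LaurentSeries Kb} (ha : a ∈ A) (hc : c = c₀ * a)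
    (h : Dq A c g) : Dq A c₀ g := by
  obtain ⟨β, γ, h1, h2, h3, h4⟩ := h
  refine ⟨β, HahnSeries.C a * γ, h1, h2, IntA.mul (intA_C ha) h3, ?_⟩
  rw [h4, hc, map_mul, mul_assoc]

theorem Dq.one (c : Kb) : Dq A c 1 :=
  ⟨1, 0, IntA.one, fun h => by
    have := h 0
    rw [HahnSeries.coeff_one, if_pos rfl, ValuationSubring.mem_nonunits_iff, map_one] at this
    exact lt_irrefl _ this, fun n => by rw [HahnSeries.coeff_zero]; exact A.zero_mem, by simp⟩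

theorem Dq.ne_zero {c : Kb} {g : LaurentSeries Kb} (hc : c ∈ A.nonunits) (h : Dq A c g) :
    g ≠ 0 := by
  obtain ⟨β, γ, h1, h2, h3, h4⟩ := h
  have hδ2 : ¬ SmallA A (β + HahnSeries.C c * γ) :=
    not_smallA_of_sub (y := β) (by rw [add_sub_cancel_left]; exact smallA_C_mulS hc h3) h2
  rintro rfl
  rw [zero_mul] at h4
  exact not_smallA_ne_zero hδ2 h4.symm

theorem Dq.inv {c : Kb} {g : LaurentSeries Kb} (hc : c ∈ A.nonunits) (h : Dq A c g) :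
    Dq A c g⁻¹ := by
  have hg := h.ne_zero hc
  obtain ⟨β, γ, h1, h2, h3, h4⟩ := h
  have hδ1 : IntA A (β + HahnSeries.C c * γ) :=
    IntA.add h1 (IntA.mul (intA_C (mem_of_nonunits hc)) h3)
  have hδ2 : ¬ SmallA A (β + HahnSeries.C c * γ) :=
    not_smallA_of_sub (y := β) (by rw [add_sub_cancel_left]; exact smallA_C_mulS hc h3) h2
  refine ⟨β + HahnSeries.C c * γ, -γ, hδ1, hδ2, ?_, ?_⟩
  · intro n
    rw [HahnSeries.coeff_neg]
    exact A.neg_mem _ (h3 n)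
  · rw [← h4, inv_mul_cancel_left₀ hg, h4]
    ring

theorem Dq.mul {c : Kb} {g g' : LaurentSeries Kb} (hc : c ∈ A) (h : Dq A c g) (h' : Dq A c g') :
    Dq A c (g * g') := by
  obtain ⟨β, γ, h1, h2, h3, h4⟩ := h
  obtain ⟨β', γ', h1', h2', h3', h4'⟩ := h'
  refine ⟨β * β', γ * β' + β * γ' + HahnSeries.C c * (γ * γ'), IntA.mul h1 h1',
    not_smallA_mul h1 h1' h2 h2', IntA.add (IntA.add (IntA.mul h3 h1') (IntA.mul h1 h3'))
      (IntA.mul (intA_C hc) (IntA.mul h3 h3')), ?_⟩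
  calc g * g' * (β * β') = (g * β) * (g' * β') := by ring
    _ = _ := by rw [h4, h4']; ring

theorem Dq.pow {c : Kb} {g : LaurentSeries Kb} (hc : c ∈ A) (h : Dq A c g) (n : ℕ) :
    Dq A c (g ^ n) := by
  induction n with
  | zero => rw [pow_zero]; exact Dq.one c
  | succ n ih => rw [pow_succ]; exact ih.mul hc h

/-! ### twists -/

theorem intA_twist {p : ℕ} (hp0 : p ≠ 0) (ξ : Kbˣ) (hξ : ξ ^ p = 1) {x : LaurentSeries Kb}
    (hx : IntA A x) : IntA A (twist ξ x) := twist_mem_intS A hp0 ξ hξ hx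

theorem not_smallA_twist {p : ℕ} (hp0 : p ≠ 0) (ξ : Kbˣ) (hξ : ξ ^ p = 1) {x : LaurentSeries Kb}
    (hx : ¬ SmallA A x) : ¬ SmallA A (twist ξ x) := by
  intro h
  apply hx
  intro n
  have h1 := h n
  rw [twist_coeff] at h1
  have h2 := nonunits_mul' (unit_zpow_mem A hp0 ξ hξ (-n)) h1
  rwa [← mul_assoc, ← Units.val_mul, ← zpow_add, neg_add_cancel, zpow_zero, Units.val_one,
    one_mul] at h2

theorem zpow_sub_one {p : ℕ} (hp0 : p ≠ 0) (ζ : Kbˣ) (hζ : ζ ^ p = 1) (k : ℤ) :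
    ∃ a ∈ A, ((ζ ^ k : Kbˣ) : Kb) - 1 = ((ζ : Kb) - 1) * a := by
  have hnat : ∀ j : ℕ, ∃ a ∈ A, ((ζ : Kb)) ^ j - 1 = ((ζ : Kb) - 1) * a := by
    intro j
    refine ⟨∑ t ∈ range j, (ζ : Kb) ^ t, ?_, (mul_geom_sum _ _).symm⟩
    refine sum_mem fun t _ => ?_
    have := unit_zpow_mem A hp0 ζ hζ (t : ℤ)
    rwa [zpow_natCast, Units.val_pow_eq_pow_val] at this
  obtain ⟨j, rfl | rfl⟩ := k.eq_nat_or_neg
  · rw [zpow_natCast, Units.val_pow_eq_pow_val]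
    exact hnat j
  · obtain ⟨a, ha, h⟩ := hnat j
    refine ⟨-(((ζ ^ (-(j : ℤ)) : Kbˣ) : Kb)) * a, ?_, ?_⟩
    · exact A.mul_mem _ _ (A.neg_mem _ (unit_zpow_mem A hp0 ζ hζ _)) ha
    · have h1 : ((ζ ^ (-(j : ℤ)) : Kbˣ) : Kb) * (ζ : Kb) ^ j = 1 := by
        rw [← Units.val_pow_eq_pow_val, ← Units.val_mul, ← zpow_natCast, ← zpow_add,
          neg_add_cancel, zpow_zero, Units.val_one]
      calc ((ζ ^ (-(j : ℤ)) : Kbˣ) : Kb) - 1
          = -(((ζ ^ (-(j : ℤ)) : Kbˣ) : Kb)) * ((ζ : Kb) ^ j - 1) := by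
            rw [mul_sub, neg_mul, h1]; ring
        _ = _ := by rw [h]; ring

theorem twist_sub {p : ℕ} (hp0 : p ≠ 0) (ζ : Kbˣ) (hζ : ζ ^ p = 1) (hζ1 : (ζ : Kb) - 1 ≠ 0)
    (i : ℕ) {x : LaurentSeries Kb} (hx : IntA A x) :
    ∃ e, IntA A e ∧ twist (ζ ^ i) x - x = HahnSeries.C ((ζ : Kb) - 1) * e := by
  refine ⟨HahnSeries.C ((ζ : Kb) - 1)⁻¹ * (twist (ζ ^ i) x - x), ?_, ?_⟩
  · intro n
    rw [coeff_C_mul, HahnSeries.coeff_sub, twist_coeff]
    obtain ⟨a, ha, h⟩ := zpow_sub_one (A := A) hp0 ζ hζ ((i : ℤ) * n)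
    have h1 : ((ζ ^ i) ^ n : Kbˣ) = ζ ^ ((i : ℤ) * n) := by rw [zpow_mul, zpow_natCast]
    have h2 : ((ζ : Kb) - 1)⁻¹ * ((((ζ ^ i) ^ n : Kbˣ) : Kb) * x.coeff n - x.coeff n) =
        a * x.coeff n := by
      rw [h1]
      have : ((ζ ^ ((i : ℤ) * n) : Kbˣ) : Kb) * x.coeff n - x.coeff n =
          (((ζ ^ ((i : ℤ) * n) : Kbˣ) : Kb) - 1) * x.coeff n := by ring
      rw [this, h, ← mul_assoc, ← mul_assoc, inv_mul_cancel₀ hζ1, one_mul]
    rw [h2]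
    exact A.mul_mem _ _ ha (hx n)
  · rw [← mul_assoc, ← map_mul, mul_inv_cancel₀ hζ1, map_one, one_mul]

/-! ### the range of `qExpand` -/

theorem exists_qExpand_eq (p : ℕ) [NeZero p] (s : LaurentSeries Kb)
    (h : ∀ n : ℤ, ¬ (p : ℤ) ∣ n → s.coeff n = 0) : ∃ s₀, qExpand Kb p s₀ = s := by
  have hp : (1 : ℤ) ≤ p := by exact_mod_cast Nat.pos_of_ne_zero (NeZero.ne p)
  have hb : ∀ k : ℤ, k < min s.order 0 → s.coeff ((p : ℤ) * k) = 0 := by
    intro k hk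
    apply HahnSeries.coeff_eq_zero_of_lt_order
    have h1 : k < s.order := lt_of_lt_of_le hk (min_le_left _ _)
    have h2 : k < 0 := lt_of_lt_of_le hk (min_le_right _ _)
    nlinarith
  refine ⟨HahnSeries.ofSuppBddBelow (fun k => s.coeff ((p : ℤ) * k))
    (HahnSeries.forallLTEqZero_supp_BddBelow _ _ hb), ?_⟩
  ext n
  by_cases hn : (p : ℤ) ∣ n
  · obtain ⟨k, rfl⟩ := hn
    rw [qExpand_coeff_mul]
    rfl
  · rw [qExpand_coeff_of_not_dvd p _ hn, h n hn]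

theorem prod_range_shift {M : Type*} [CommMonoid M] (G : ℕ → M) (p : ℕ) (hp : 0 < p)
    (h : G p = G 0) : ∏ i ∈ range p, G (i + 1) = ∏ i ∈ range p, G i := by
  obtain ⟨k, rfl⟩ : ∃ k, p = k + 1 := ⟨p - 1, by omega⟩
  rw [Finset.prod_range_succ, Finset.prod_range_succ' G, h]

theorem twist_prod_twist {p : ℕ} (hp : 0 < p) (ζ : Kbˣ) (hζ : ζ ^ p = 1) (x : LaurentSeries Kb) :
    twist ζ (∏ i : Fin p, twist (ζ ^ (i : ℕ)) x) = ∏ i : Fin p, twist (ζ ^ (i : ℕ)) x := by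
  rw [map_prod]
  simp only [twist_twist, ← pow_succ']
  rw [Fin.prod_univ_eq_prod_range (fun i => twist (ζ ^ (i + 1)) x) p,
    Fin.prod_univ_eq_prod_range (fun i => twist (ζ ^ i) x) p]
  exact prod_range_shift (fun i => twist (ζ ^ i) x) p hp (by simp only [hζ, pow_zero])

theorem coeff_eq_zero_of_twist_eq {p : ℕ} (ζ : Kbˣ) (hζ : IsPrimitiveRoot ζ p)
    {s : LaurentSeries Kb} (hs : twist ζ s = s) (n : ℤ) (hn : ¬ (p : ℤ) ∣ n) : s.coeff n = 0 := by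
  have h1 := congrArg (fun y : LaurentSeries Kb => y.coeff n) hs
  simp only [twist_coeff] at h1
  have h2 : ζ ^ n ≠ 1 := fun h => hn ((hζ.zpow_eq_one_iff_dvd n).1 h)
  have h3 : ((ζ ^ n : Kbˣ) : Kb) - 1 ≠ 0 := fun h => h2 (Units.ext (by simpa using sub_eq_zero.1 h))
  have h4 : (((ζ ^ n : Kbˣ) : Kb) - 1) * s.coeff n = 0 := by rw [sub_mul, h1, one_mul, sub_self]
  exact (mul_eq_zero.1 h4).resolve_left h3

theorem prim_prod {ι : Type*} (s : Finset ι) (f : ι → LaurentSeries Kb)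
    (h : ∀ i ∈ s, IntA A (f i) ∧ ¬ SmallA A (f i)) :
    IntA A (∏ i ∈ s, f i) ∧ ¬ SmallA A (∏ i ∈ s, f i) := by
  classical
  induction s using Finset.induction_on with
  | empty =>
    rw [Finset.prod_empty]
    refine ⟨IntA.one, fun h => ?_⟩
    have := h 0
    rw [HahnSeries.coeff_one, if_pos rfl, ValuationSubring.mem_nonunits_iff, map_one] at this
    exact lt_irrefl _ this
  | insert a s ha ih =>
    rw [Finset.prod_insert ha]
    have h1 := h a (Finset.mem_insert_self a s)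
    have h2 := ih fun i hi => h i (Finset.mem_insert_of_mem hi)
    exact ⟨IntA.mul h1.1 h2.1, not_smallA_mul h1.1 h2.1 h1.2 h2.2⟩

theorem sub_one_dvd_p {p : ℕ} (hp : p.Prime) (ζ : Kbˣ) (hζ : IsPrimitiveRoot ζ p) :
    ∃ a ∈ A, (p : Kb) = ((ζ : Kb) - 1) * a := by
  have hζ' : IsPrimitiveRoot (ζ : Kb) p := IsPrimitiveRoot.coe_units_iff.2 hζ
  refine ⟨-(∑ k ∈ range p, ∑ t ∈ range k, (ζ : Kb) ^ t), ?_, ?_⟩
  · refine A.neg_mem _ (sum_mem fun k _ => sum_mem fun t _ => ?_)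
    have := unit_zpow_mem A hp.ne_zero ζ hζ.pow_eq_one (t : ℤ)
    rwa [zpow_natCast, Units.val_pow_eq_pow_val] at this
  · have h0 := hζ'.geom_sum_eq_zero hp.one_lt
    have h1 : ∑ k ∈ range p, ((ζ : Kb) ^ k - 1) = -(p : Kb) := by
      rw [Finset.sum_sub_distrib, h0]
      simp
    rw [mul_neg, Finset.mul_sum]
    simp_rw [mul_geom_sum]
    rw [h1, neg_neg]

/-- **the contraction step** (series form). -/
theorem step_series {p : ℕ} [NeZero p] (hp : p.Prime) (ζ : Kbˣ) (hζ : IsPrimitiveRoot ζ p)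
    {b g : LaurentSeries Kb} (hg : qExpand Kb p g = ∏ i : Fin p, twist (ζ ^ (i : ℕ)) b)
    {c c' a₁ a₂ : Kb} (hc : c ∈ A) (hb : Dq A c b) (hc' : c' ≠ 0) (ha₁ : a₁ ∈ A) (ha₂ : a₂ ∈ A)
    (h1 : c * ((ζ : Kb) - 1) = c' * a₁) (h2 : c ^ p = c' * a₂) : Dq A c' g := by
  obtain ⟨β, γ, hβ, hβ', hγ, hbβ⟩ := hb
  have hp0 : p ≠ 0 := hp.ne_zero
  have hζp := hζ.pow_eq_one
  have hξ : ∀ i : ℕ, (ζ ^ i) ^ p = 1 := fun i => by
    rw [← pow_mul, mul_comm, pow_mul, hζp, one_pow]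
  have hζ1 : (ζ : Kb) - 1 ≠ 0 := by
    intro h
    exact hζ.ne_one hp.one_lt (Units.ext (by simpa using sub_eq_zero.1 h))
  have hζA : (ζ : Kb) ∈ A := by
    have := unit_zpow_mem A hp0 ζ hζp 1
    rwa [zpow_one] at this
  let a : intS A := ⟨β, hβ⟩
  let d : intS A := ⟨γ, hγ⟩
  let a' : Fin p → intS A := fun i => ⟨twist (ζ ^ (i : ℕ)) β, intA_twist hp0 _ (hξ i) hβ⟩
  let d' : Fin p → intS A := fun i => ⟨twist (ζ ^ (i : ℕ)) γ, intA_twist hp0 _ (hξ i) hγ⟩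
  let l : intS A := ⟨HahnSeries.C ((ζ : Kb) - 1), C_mem_intS A (A.sub_mem hζA A.one_mem)⟩
  let cR : intS A := ⟨HahnSeries.C c, C_mem_intS A hc⟩
  have hl : l ∣ ((p : ℕ) : intS A) := by
    obtain ⟨e, he, h⟩ := sub_one_dvd_p (A := A) hp ζ hζ
    refine ⟨⟨HahnSeries.C e, C_mem_intS A he⟩, Subtype.ext ?_⟩
    show ((p : ℕ) : LaurentSeries Kb) = HahnSeries.C ((ζ : Kb) - 1) * HahnSeries.C e
    rw [← map_mul, ← h, map_natCast]
  have ha : ∀ i, l ∣ a' i - a := by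
    intro i
    obtain ⟨e, he, h⟩ := twist_sub (A := A) hp0 ζ hζp hζ1 i hβ
    exact ⟨⟨e, he⟩, Subtype.ext h⟩
  have hd : ∀ i, l ∣ d' i - d := by
    intro i
    obtain ⟨e, he, h⟩ := twist_sub (A := A) hp0 ζ hζp hζ1 i hγ
    exact ⟨⟨e, he⟩, Subtype.ext h⟩
  obtain ⟨E₁, E₂, hE⟩ := prod_add_eq hp l hl a d a' d' ha hd cR
  have hE' : ∏ i : Fin p, (twist (ζ ^ (i : ℕ)) β + HahnSeries.C c * twist (ζ ^ (i : ℕ)) γ) =
      ∏ i : Fin p, twist (ζ ^ (i : ℕ)) β + HahnSeries.C c * HahnSeries.C ((ζ : Kb) - 1) * E₁.1 +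
        HahnSeries.C c ^ p * E₂.1 := by
    have := congrArg Subtype.val hE
    simpa only [SubmonoidClass.coe_finsetProd, Subring.coe_add, Subring.coe_mul,
      Subring.coe_pow] using this
  set B := ∏ i : Fin p, twist (ζ ^ (i : ℕ)) β with hB
  have hBp : IntA A B ∧ ¬ SmallA A B :=
    prim_prod Finset.univ _ fun i _ =>
      ⟨intA_twist hp0 _ (hξ i) hβ, not_smallA_twist hp0 _ (hξ i) hβ'⟩
  have hkey : qExpand Kb p g * B = B + HahnSeries.C c' *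
      (HahnSeries.C a₁ * E₁.1 + HahnSeries.C a₂ * E₂.1) := by
    rw [hg, hB, ← Finset.prod_mul_distrib]
    have : ∀ i : Fin p, twist (ζ ^ (i : ℕ)) b * twist (ζ ^ (i : ℕ)) β =
        twist (ζ ^ (i : ℕ)) β + HahnSeries.C c * twist (ζ ^ (i : ℕ)) γ := by
      intro i
      rw [← map_mul, hbβ, map_add, map_mul, twist_C]
    simp only [this]
    rw [hE', ← map_mul, h1, ← map_pow, h2, map_mul, map_mul]
    ring
  obtain ⟨B₀, hB₀⟩ := exists_qExpand_eq p B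
    (coeff_eq_zero_of_twist_eq ζ hζ (twist_prod_twist hp.pos ζ hζp β))
  refine ⟨B₀, HahnSeries.C c'⁻¹ * (g * B₀ - B₀), ?_, ?_, ?_, ?_⟩
  · rw [← intA_qExpand_iff p, hB₀]; exact hBp.1
  · rw [← smallA_qExpand_iff p, hB₀]; exact hBp.2
  · rw [← intA_qExpand_iff p, map_mul, qExpand_C, map_sub, map_mul, hB₀, hkey, add_sub_cancel_left,
      ← mul_assoc, ← map_mul, inv_mul_cancel₀ hc', map_one, one_mul]
    exact IntA.add (IntA.mul (intA_C ha₁) E₁.2) (IntA.mul (intA_C ha₂) E₂.2)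
  · rw [← mul_assoc, ← map_mul, mul_inv_cancel₀ hc', map_one, one_mul]
    ring

end Fermat.Agent.S33.N1
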