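import Fermat.Agent.S33.N1.Defs
import Fermat.Agent.S33.N1.NormExp

set_option autoImplicit false

/-!
# S33 / N1 / Step (C) : one contraction step for Kummer classes

`Dzero c x`, `α_* x = 0`  ⟹  `Dinf c' x`;   `Dinf c x`, `β_* x = 0`  ⟹  `Dzero c' x`,
given the statement `hS` on series (`step_series`).
-/

noncomputable section

namespace Fermat.Agent.S33.N1

open AlgebraicCurve ModularCurve
open Fermat.Agent.S24 (Kb FN)
open Fermat.Agent.S18 (IntA SmallA)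
open Fermat.Agent.GES Fermat.Agent.NEW Fermat.Agent.S35

variable {A : ValuationSubring Kb}

theorem smallA_C_mul {c : Kb} (hc : c ∈ A.nonunits) {γ : LaurentSeries Kb} (hγ : IntA A γ) :
    SmallA A (HahnSeries.C c * γ) := by
  intro n
  rw [HahnSeries.C_mul_eq_smul, HahnSeries.coeff_smul, smul_eq_mul]
  rw [ValuationSubring.mem_nonunits_iff] at hc ⊢
  rw [map_mul]
  exact mul_lt_one_of_lt_of_le hc ((A.valuation_le_one_iff _).2 (hγ n))

theorem dq_inv_aux {c : Kb} (hc : c ∈ A.nonunits) {g : LaurentSeries Kb} (h : Dq A c g) :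
    Dq A c g⁻¹ := by
  obtain ⟨β, γ, hβ, hβ', hγ, e⟩ := h
  have hsm : SmallA A (HahnSeries.C c * γ) := smallA_C_mul hc hγ
  have hn : ¬ SmallA A (β + HahnSeries.C c * γ) :=
    not_smallA_of_sub (by rw [add_sub_cancel_left]; exact hsm) hβ'
  have hg : g ≠ 0 := by
    rintro rfl
    rw [zero_mul] at e
    exact not_smallA_ne_zero hn e.symm
  refine ⟨β + HahnSeries.C c * γ, -γ, IntA.add hβ (SmallA.intA hsm), hn, ?_, ?_⟩
  · have := (IntA.sub (A := A) (x := 0) (y := γ) (fun n => by simp [A.zero_mem]) hγ)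
    rwa [zero_sub] at this
  · rw [← e, inv_mul_cancel_left₀ hg, e]
    ring

/-- change of the representative by an `m`-th power. -/
theorem exists_div_pow (M m : ℕ) [NeZero M] (f : DN M m) (u : FN M) (hu : u ≠ 0) :
    ∃ f' : DN M m, Vm.mk f' = Vm.mk f ∧
      ((f' : (FN M)ˣ) : FN M) = ((f : (FN M)ˣ) : FN M) / u ^ m := by
  refine ⟨f * ⟨(Units.mk0 u hu)⁻¹ ^ m, pow_mem_divBy m _⟩, ?_, ?_⟩
  · rw [Vm.mk_mul, add_eq_left, Vm.mk_eq_zero_iff]
    exact ⟨_, rfl⟩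
  · simp [div_eq_mul_inv]

variable {N p m : ℕ} [NeZero N] [NeZero p] [NeZero m]

theorem dinf_of_dzero (hp : p.Prime) (hpN : ¬ p ∣ N) (ζ : Kbˣ) (hζ : IsPrimitiveRoot ζ p)
    (c c' : Kb) (hc' : c' ∈ A.nonunits)
    (hS : ∀ g b : LaurentSeries Kb, qExpand Kb p g = ∏ i : Fin p, S28.twist (ζ ^ (i : ℕ)) b →
      Dq A c b → Dq A c' g)
    (x : VN (N * p) m) (hx : Dzero A N p m c x) (ha : alphaV N p m x = 0) :
    Dinf A N p m c' x := by
  obtain ⟨f, rfl, hf⟩ := hx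
  obtain ⟨w, hw⟩ := (alphaV_mk_eq_zero_iff N p m f).1 ha
  have hf0 : ((f : (FN (N * p))ˣ) : FN (N * p)) ≠ 0 := Units.ne_zero _
  have hw0 : w ≠ 0 := by
    rintro rfl
    rw [zero_pow (NeZero.ne m)] at hw
    exact (normAU N p (f : (FN (N * p))ˣ)).ne_zero hw.symm
  have hu : heckeAlphaBar Kb N p w ≠ 0 := by
    rw [Ne, map_eq_zero]; exact hw0
  obtain ⟨f', e1, e2⟩ := exists_div_pow (N * p) m f (heckeAlphaBar Kb N p w) hu
  refine ⟨f', e1, ?_⟩
  rw [e2]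
  have e3 : ((((f : (FN (N * p))ˣ) : FN (N * p)) / heckeAlphaBar Kb N p w ^ m : FN (N * p)) :
      LaurentSeries Kb) = ((w : LaurentSeries Kb) ^ m /
        (((f : (FN (N * p))ˣ) : FN (N * p)) : LaurentSeries Kb))⁻¹ := by
    rw [← coeHom_apply, map_div₀, map_pow, coeHom_apply, coeHom_apply, coe_heckeAlphaBar, inv_div]
  rw [e3]
  apply dq_inv_aux hc'
  refine hS _ _ ?_ hf
  have h1 := qExpand_normA N p hp hpN ζ hζ ((f : (FN (N * p))ˣ) : FN (N * p))
  rw [← hw, ← coeHom_apply, map_pow, coeHom_apply] at h1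
  rw [map_div₀, h1, mul_div_cancel_left₀]
  rw [Ne, map_eq_zero]
  exact fun h => hf0 (Subtype.ext h)

theorem dzero_of_dinf (hp : p.Prime) (hpN : ¬ p ∣ N) (ζ : Kbˣ) (hζ : IsPrimitiveRoot ζ p)
    (c c' : Kb) (hc' : c' ∈ A.nonunits)
    (hS : ∀ g b : LaurentSeries Kb, qExpand Kb p g = ∏ i : Fin p, S28.twist (ζ ^ (i : ℕ)) b →
      Dq A c b → Dq A c' g)
    (x : VN (N * p) m) (hx : Dinf A N p m c x) (hb : betaV N p m x = 0) :
    Dzero A N p m c' x := by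
  have hc : Nat.Coprime p N := (Nat.Prime.coprime_iff_not_dvd hp).2 hpN
  obtain ⟨f, rfl, hf⟩ := hx
  obtain ⟨w, hw⟩ := (betaV_mk_eq_zero_iff N p m f).1 hb
  have hf0 : ((f : (FN (N * p))ˣ) : FN (N * p)) ≠ 0 := Units.ne_zero _
  have hw0 : w ≠ 0 := by
    rintro rfl
    rw [zero_pow (NeZero.ne m)] at hw
    exact (normBU N p (f : (FN (N * p))ˣ)).ne_zero hw.symm
  have hu : heckeBetaBar Kb N p w ≠ 0 := by
    rw [Ne, map_eq_zero]; exact hw0
  obtain ⟨f', e1, e2⟩ := exists_div_pow (N * p) m f (heckeBetaBar Kb N p w) hu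
  refine ⟨f', e1, ?_⟩
  rw [e2]
  have e3 : ((WF N p (((f : (FN (N * p))ˣ) : FN (N * p)) / heckeBetaBar Kb N p w ^ m) :
      FN (N * p)) : LaurentSeries Kb) = ((w : LaurentSeries Kb) ^ m /
        ((WF N p ((f : (FN (N * p))ˣ) : FN (N * p)) : FN (N * p)) : LaurentSeries Kb))⁻¹ := by
    rw [map_div₀, map_pow, WF_beta N p hc, ← coeHom_apply, map_div₀, map_pow, coeHom_apply,
      coeHom_apply, coe_heckeAlphaBar, inv_div]
  rw [e3]
  apply dq_inv_aux hc'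
  refine hS _ _ ?_ hf
  have h1 := qExpand_normB N p hp hpN ζ hζ ((f : (FN (N * p))ˣ) : FN (N * p))
  rw [← hw, ← coeHom_apply, map_pow, coeHom_apply] at h1
  rw [map_div₀, h1, mul_div_cancel_left₀]
  rw [Ne, map_eq_zero]
  intro h
  apply hf0
  have : WF N p ((f : (FN (N * p))ˣ) : FN (N * p)) = 0 := Subtype.ext h
  rwa [map_eq_zero] at this

end Fermat.Agent.S33.N1
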