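import Fermat.Agent.S33.N1.Series
import Fermat.Agent.S33.N1.Iter
import Fermat.Agent.S33.N1.Init

set_option autoImplicit false

/-!
# S33 / N1 : `StepS` holds; both depths of a class of `Br` killed by the two norms are infinite
-/

noncomputable section

namespace Fermat.Agent.S33.N1

open AlgebraicCurve ModularCurve
open Fermat.Agent.S24 (Kb FN)
open Fermat.Agent.GES Fermat.Agent.NEW

theorem stepS {A : ValuationSubring Kb} {p : ℕ} [NeZero p] (hp : p.Prime) (ζ : Kbˣ)
    (hζ : IsPrimitiveRoot ζ p) : StepS A p ζ := by
  intro c c' g b hg hc hb h1 h2 hc'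
  exact step_series hp ζ hζ hg hc hb hc' h1 h2 (by field_simp) (by field_simp)

end Fermat.Agent.S33.N1
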